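/-
S55 / ALG10 (part 1): elementwise form of the long exact sequence of level cohomology, additivity
of the coefficient maps, and the connecting homomorphism on representing cocycles.
-/
import Fermat.Agent.S55.LevelElem

set_option autoImplicit false

open CategoryTheory

namespace Fermat.Agent.S55.CF

open Fermat.Agent.S55.Level

universe u

variable {k G : Type u} [CommRing k] [Group G] (𝒰 : LevelStructure G)

section Functoriality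

variable {A B C : Rep.{u} k G} [IsDiscrete 𝒰 A] [IsDiscrete 𝒰 B] [IsDiscrete 𝒰 C]

/-- The map induced on level cohomology by a morphism of coefficients. -/
noncomputable abbrev Hmap (φ : A ⟶ B) (n : ℕ) : levelCohomology 𝒰 A n ⟶ levelCohomology 𝒰 B n :=
  HomologicalComplex.homologyMap (levelMap 𝒰 φ) n

lemma levelMap_id : levelMap 𝒰 (𝟙 A) = 𝟙 (levelComplex 𝒰 A) := by
  ext n : 1
  refine ModuleCat.hom_ext (LinearMap.ext fun (x : levelCochains 𝒰 A n) => Subtype.ext ?_)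
  funext g
  rfl

lemma levelMap_comp (φ : A ⟶ B) (ψ : B ⟶ C) :
    levelMap 𝒰 (φ ≫ ψ) = levelMap 𝒰 φ ≫ levelMap 𝒰 ψ := by
  ext n : 1
  refine ModuleCat.hom_ext (LinearMap.ext fun (x : levelCochains 𝒰 A n) => Subtype.ext ?_)
  funext g
  rfl

lemma levelMap_add (φ ψ : A ⟶ B) : levelMap 𝒰 (φ + ψ) = levelMap 𝒰 φ + levelMap 𝒰 ψ := by
  ext n : 1
  refine ModuleCat.hom_ext (LinearMap.ext fun (x : levelCochains 𝒰 A n) => Subtype.ext ?_)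
  funext g
  rfl

lemma levelMap_zero : levelMap 𝒰 (0 : A ⟶ B) = 0 := by
  ext n : 1
  refine ModuleCat.hom_ext (LinearMap.ext fun (x : levelCochains 𝒰 A n) => Subtype.ext ?_)
  funext g
  rfl

lemma levelMap_nsmul (m : ℕ) (φ : A ⟶ B) : levelMap 𝒰 (m • φ) = m • levelMap 𝒰 φ := by
  induction m with
  | zero => simp only [zero_smul]; exact levelMap_zero 𝒰
  | succ m ih => rw [succ_nsmul, succ_nsmul, levelMap_add, ih]

@[simp]
lemma Hmap_id (n : ℕ) : Hmap 𝒰 (𝟙 A) n = 𝟙 _ := by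
  unfold Hmap
  rw [levelMap_id, HomologicalComplex.homologyMap_id]
  rfl

lemma Hmap_comp (φ : A ⟶ B) (ψ : B ⟶ C) (n : ℕ) :
    Hmap 𝒰 (φ ≫ ψ) n = Hmap 𝒰 φ n ≫ Hmap 𝒰 ψ n := by
  unfold Hmap
  rw [levelMap_comp, HomologicalComplex.homologyMap_comp]
  rfl

lemma Hmap_comp_apply (φ : A ⟶ B) (ψ : B ⟶ C) (n : ℕ) (x : levelCohomology 𝒰 A n) :
    (Hmap 𝒰 (φ ≫ ψ) n).hom x = (Hmap 𝒰 ψ n).hom ((Hmap 𝒰 φ n).hom x) := by
  rw [Hmap_comp]; rfl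

lemma Hmap_add (φ ψ : A ⟶ B) (n : ℕ) : Hmap 𝒰 (φ + ψ) n = Hmap 𝒰 φ n + Hmap 𝒰 ψ n := by
  unfold Hmap
  rw [levelMap_add, HomologicalComplex.homologyMap_add]
  rfl

@[simp]
lemma Hmap_zero (n : ℕ) : Hmap 𝒰 (0 : A ⟶ B) n = 0 := by
  unfold Hmap
  rw [levelMap_zero, HomologicalComplex.homologyMap_zero]
  rfl

lemma Hmap_nsmul (m : ℕ) (φ : A ⟶ B) (n : ℕ) : Hmap 𝒰 (m • φ) n = m • Hmap 𝒰 φ n := by
  induction m with
  | zero => simp only [zero_smul]; exact Hmap_zero 𝒰 n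
  | succ m ih => rw [succ_nsmul, succ_nsmul, Hmap_add, ih]

/-- Multiplication by `m` on the coefficients induces multiplication by `m` on cohomology. -/
lemma Hmap_nsmul_id_apply (m : ℕ) (n : ℕ) (x : levelCohomology 𝒰 A n) :
    (Hmap 𝒰 (m • 𝟙 A) n).hom x = m • x := by
  rw [Hmap_nsmul, Hmap_id]
  rfl

end Functoriality

section LES

open ShortComplex

variable {X : ShortComplex (Rep.{u} k G)} [IsDiscrete 𝒰 X.X₁] [IsDiscrete 𝒰 X.X₂]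
  [IsDiscrete 𝒰 X.X₃] (hX : X.ShortExact)

omit hX in
lemma Hmap_g_Hmap_f (i : ℕ) (x : levelCohomology 𝒰 X.X₁ i) :
    (Hmap 𝒰 X.g i).hom ((Hmap 𝒰 X.f i).hom x) = 0 := by
  rw [← Hmap_comp_apply, X.zero, Hmap_zero]
  rfl

include hX in
lemma exists_of_Hmap_g_eq_zero (i : ℕ) (y : levelCohomology 𝒰 X.X₂ i)
    (hy : (Hmap 𝒰 X.g i).hom y = 0) : ∃ x, (Hmap 𝒰 X.f i).hom x = y := by
  have h := level_exact₂ 𝒰 hX i
  rw [ShortComplex.moduleCat_exact_iff] at h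
  exact h y hy

lemma levelδ_Hmap_g (i j : ℕ) (hij : i + 1 = j) (y : levelCohomology 𝒰 X.X₂ i) :
    (levelδ 𝒰 hX i j hij).hom ((Hmap 𝒰 X.g i).hom y) = 0 :=
  congrArg (fun φ => ModuleCat.Hom.hom φ y)
    ((levelShortComplex_shortExact 𝒰 hX).comp_δ i j hij)

lemma exists_of_levelδ_eq_zero (i j : ℕ) (hij : i + 1 = j) (z : levelCohomology 𝒰 X.X₃ i)
    (hz : (levelδ 𝒰 hX i j hij).hom z = 0) : ∃ y, (Hmap 𝒰 X.g i).hom y = z := by
  have h := level_exact₃ 𝒰 hX i j hij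
  rw [ShortComplex.moduleCat_exact_iff] at h
  exact h z hz

lemma Hmap_f_levelδ (i j : ℕ) (hij : i + 1 = j) (z : levelCohomology 𝒰 X.X₃ i) :
    (Hmap 𝒰 X.f j).hom ((levelδ 𝒰 hX i j hij).hom z) = 0 :=
  congrArg (fun φ => ModuleCat.Hom.hom φ z)
    ((levelShortComplex_shortExact 𝒰 hX).δ_comp i j hij)

lemma exists_of_Hmap_f_eq_zero (i j : ℕ) (hij : i + 1 = j) (x : levelCohomology 𝒰 X.X₁ j)
    (hx : (Hmap 𝒰 X.f j).hom x = 0) : ∃ z, (levelδ 𝒰 hX i j hij).hom z = x := by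
  have h := level_exact₁ 𝒰 hX i j hij
  rw [ShortComplex.moduleCat_exact_iff] at h
  exact h x hx

include hX in
lemma Hmap_g_eq_zero_iff (i : ℕ) (y : levelCohomology 𝒰 X.X₂ i) :
    (Hmap 𝒰 X.g i).hom y = 0 ↔ ∃ x, (Hmap 𝒰 X.f i).hom x = y :=
  ⟨exists_of_Hmap_g_eq_zero 𝒰 hX i y, by rintro ⟨x, rfl⟩; exact Hmap_g_Hmap_f 𝒰 i x⟩

lemma levelδ_eq_zero_iff (i j : ℕ) (hij : i + 1 = j) (z : levelCohomology 𝒰 X.X₃ i) :
    (levelδ 𝒰 hX i j hij).hom z = 0 ↔ ∃ y, (Hmap 𝒰 X.g i).hom y = z :=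
  ⟨exists_of_levelδ_eq_zero 𝒰 hX i j hij z, by
    rintro ⟨y, rfl⟩; exact levelδ_Hmap_g 𝒰 hX i j hij y⟩

lemma Hmap_f_eq_zero_iff (i j : ℕ) (hij : i + 1 = j) (x : levelCohomology 𝒰 X.X₁ j) :
    (Hmap 𝒰 X.f j).hom x = 0 ↔ ∃ z, (levelδ 𝒰 hX i j hij).hom z = x :=
  ⟨exists_of_Hmap_f_eq_zero 𝒰 hX i j hij x, by
    rintro ⟨z, rfl⟩; exact Hmap_f_levelδ 𝒰 hX i j hij z⟩

include hX in
/-- `H⁰` is left exact. -/
lemma Hmap_f_zero_injective : Function.Injective (Hmap 𝒰 X.f 0).hom := by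
  have hS := levelShortComplex_shortExact 𝒰 hX
  have h1 : Mono (levelMap 𝒰 X.f) := hS.mono_f
  have h2 : Mono ((levelMap 𝒰 X.f).f 0) := inferInstance
  have h3 : Mono (Hmap 𝒰 X.f 0) :=
    HomologicalComplex.mono_homologyMap_of_mono_of_not_rel (levelMap 𝒰 X.f) 0 (by
      intro i h
      simp at h)
  exact (ModuleCat.mono_iff_injective _).1 h3

omit hX in
/-- Mathlib's concrete constructor of cycles agrees with `levelCyclesMk`. -/
lemma cyclesMk_eq_levelCyclesMk (A : Rep.{u} k G) [IsDiscrete 𝒰 A] (n : ℕ)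
    (x : levelCochains 𝒰 A n)
    (hx : (forget₂ (ModuleCat k) Ab).map ((levelComplex 𝒰 A).d n (n + 1)) x = 0)
    (hx' : (inhomogeneousCochains.d A n).hom x.1 = 0) :
    (levelComplex 𝒰 A).cyclesMk x (n + 1) (by simp) hx =
      (levelCyclesMk 𝒰 A n).hom ⟨x.1, x.2, hx'⟩ := by
  apply iCycles_injective (levelComplex 𝒰 A) n
  have h1 := (levelComplex 𝒰 A).i_cyclesMk x (n + 1) (by simp) hx
  refine Eq.trans h1 ?_
  refine Subtype.ext ?_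
  exact (iCycles_levelCyclesMk 𝒰 A n ⟨x.1, x.2, hx'⟩).symm

theorem levelδ_levelπ (i : ℕ)
    (z₃ : levelCocycles 𝒰 X.X₃ i) (y : levelCochains 𝒰 X.X₂ i)
    (hy : ∀ g, X.g.hom (y.1 g) = z₃.1 g)
    (z₁ : levelCocycles 𝒰 X.X₁ (i + 1))
    (hz₁ : ∀ g, X.f.hom (z₁.1 g) = (inhomogeneousCochains.d X.X₂ i).hom y.1 g) :
    (levelδ 𝒰 hX i (i + 1) rfl).hom ((levelπ 𝒰 X.X₃ i).hom z₃) =
      (levelπ 𝒰 X.X₁ (i + 1)).hom z₁ := by
  have hS := levelShortComplex_shortExact 𝒰 hX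
  let x₃ : levelCochains 𝒰 X.X₃ i := ⟨z₃.1, z₃.2.1⟩
  let x₁ : levelCochains 𝒰 X.X₁ (i + 1) := ⟨z₁.1, z₁.2.1⟩
  have hx₃ : (forget₂ (ModuleCat k) Ab).map ((levelShortComplex 𝒰 X).X₃.d i (i + 1)) x₃ = 0 := by
    refine Subtype.ext ?_
    simp only [levelShortComplex, levelComplex, CochainComplex.of_d]
    exact z₃.2.2
  have hx₂ : (forget₂ (ModuleCat k) Ab).map ((levelShortComplex 𝒰 X).g.f i) y = x₃ := by
    refine Subtype.ext (funext fun g => ?_)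
    exact hy g
  have hx₁ : (forget₂ (ModuleCat k) Ab).map ((levelShortComplex 𝒰 X).f.f (i + 1)) x₁ =
      (forget₂ (ModuleCat k) Ab).map ((levelShortComplex 𝒰 X).X₂.d i (i + 1)) y := by
    refine Subtype.ext (funext fun g => ?_)
    simp only [levelShortComplex, levelComplex, CochainComplex.of_d]
    exact hz₁ g
  have key := hS.δ_apply i (i + 1) rfl x₃ hx₃ y hx₂ x₁ hx₁ (i + 1 + 1) (by simp)
  have hx₁' : (forget₂ (ModuleCat k) Ab).map ((levelComplex 𝒰 X.X₁).d (i + 1) (i + 1 + 1)) x₁ = 0 :=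
    hS.d_eq_zero_of_f_eq_d_apply i (i + 1) y x₁ hx₁ (i + 1 + 1)
  have e₃ := cyclesMk_eq_levelCyclesMk 𝒰 X.X₃ i x₃ hx₃ z₃.2.2
  have e₁ := cyclesMk_eq_levelCyclesMk 𝒰 X.X₁ (i + 1) x₁ hx₁' z₁.2.2
  erw [e₃, e₁] at key
  exact key

end LES

end Fermat.Agent.S55.CF
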