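/-
S55 / ALG10 (part 3): the Kummer sequence `0 → μ → E --m--> E → 0` of discrete representations and
its consequences for level cohomology (the shape of (K1), (K2), (K3)):

  `0 → Hⁿ(E)/m → Hⁿ⁺¹(μ) → Hⁿ⁺¹(E)[m] → 0`,

and `Hⁿ⁺¹(μ) = 0` as soon as `Hⁿ(E)` is `m`-divisible and `Hⁿ⁺¹(E)` has no `m`-torsion.
-/
import Fermat.Agent.S55.CF.LESElem

set_option autoImplicit false

open CategoryTheory

namespace Fermat.Agent.S55.CF

open Fermat.Agent.S55.Level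

universe u

variable {k G : Type u} [CommRing k] [Group G] (𝒰 : LevelStructure G)

/-- Elementwise exactness in `Rep k G`. -/
lemma rep_exact_iff (S : ShortComplex (Rep.{u} k G)) :
    S.Exact ↔ ∀ x : S.X₂.V, S.g.hom x = 0 → ∃ y : S.X₁.V, S.f.hom y = x := by
  rw [← ShortComplex.exact_map_iff_of_faithful S (forget₂ (Rep.{u} k G) (ModuleCat.{u} k)),
    ShortComplex.moduleCat_exact_iff]
  rfl

/-- Elementwise criterion for short exactness in `Rep k G`. -/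
lemma rep_shortExact_of (S : ShortComplex (Rep.{u} k G)) (hf : Function.Injective S.f.hom)
    (hg : Function.Surjective S.g.hom)
    (hex : ∀ x : S.X₂.V, S.g.hom x = 0 → ∃ y : S.X₁.V, S.f.hom y = x) : S.ShortExact :=
  { exact := (rep_exact_iff S).2 hex
    mono_f := (Rep.mono_iff_injective _).2 hf
    epi_g := (Rep.epi_iff_surjective _).2 hg }

section Kummer

variable {E μ : Rep.{u} k G} [IsDiscrete 𝒰 E] [IsDiscrete 𝒰 μ] (ι : μ ⟶ E) (m : ℕ)

lemma nsmul_id_hom_apply (e : E) : (m • 𝟙 E : E ⟶ E).hom e = m • e := by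
  rw [Rep.nsmul_hom]
  rfl

/-- The Kummer sequence is a complex as soon as `μ` is killed by `m`. -/
lemma kummer_zero_of (h : ∀ z : μ, m • z = 0) : ι ≫ (m • 𝟙 E) = 0 := by
  refine Rep.hom_ext ?_
  ext z
  show (m • 𝟙 E : E ⟶ E).hom (ι.hom z) = 0
  rw [nsmul_id_hom_apply, ← map_nsmul, h z, map_zero]

/-- Elementwise criterion for the Kummer sequence to be short exact: `ι` is injective with image
the `m`-torsion of `E`, and `E` is `m`-divisible. -/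
theorem kummer_shortExact_of (hι : Function.Injective ι.hom)
    (hker : ∀ e : E, m • e = 0 → ∃ z : μ, ι.hom z = e) (hdiv : ∀ e : E, ∃ e' : E, m • e' = e)
    (w : ι ≫ (m • 𝟙 E) = 0) : (ShortComplex.mk ι (m • 𝟙 E) w).ShortExact := by
  refine rep_shortExact_of _ hι ?_ ?_
  · intro e
    obtain ⟨e', he'⟩ := hdiv e
    exact ⟨e', by rw [← he']; exact nsmul_id_hom_apply m e'⟩
  · intro e he
    refine hker e ?_
    rw [← he]
    exact (nsmul_id_hom_apply m e).symm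

variable {ι m} {w : ι ≫ (m • 𝟙 E) = 0} (hK : (ShortComplex.mk ι (m • 𝟙 E) w).ShortExact)

/-- The Kummer connecting homomorphism `Hⁿ(E) ⟶ Hⁿ⁺¹(μ)`. -/
noncomputable def kummerδ (n : ℕ) : levelCohomology 𝒰 E n ⟶ levelCohomology 𝒰 μ (n + 1) :=
  levelδ 𝒰 hK n (n + 1) rfl

/-- `ker (δ : Hⁿ(E) → Hⁿ⁺¹(μ)) = m Hⁿ(E)`. -/
theorem kummerδ_eq_zero_iff (n : ℕ) (x : levelCohomology 𝒰 E n) :
    (kummerδ 𝒰 hK n).hom x = 0 ↔ ∃ y : levelCohomology 𝒰 E n, m • y = x := by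
  refine (levelδ_eq_zero_iff 𝒰 hK n (n + 1) rfl x).trans ?_
  refine exists_congr fun y => ?_
  rw [show (Hmap 𝒰 (ShortComplex.mk ι (m • 𝟙 E) w).g n).hom y = m • y from
    Hmap_nsmul_id_apply 𝒰 m n y]

/-- `im (δ : Hⁿ(E) → Hⁿ⁺¹(μ)) = ker (Hⁿ⁺¹(μ) → Hⁿ⁺¹(E))`. -/
theorem Hmap_ι_eq_zero_iff (n : ℕ) (z : levelCohomology 𝒰 μ (n + 1)) :
    (Hmap 𝒰 ι (n + 1)).hom z = 0 ↔ ∃ x, (kummerδ 𝒰 hK n).hom x = z :=
  Hmap_f_eq_zero_iff 𝒰 hK n (n + 1) rfl z

include hK in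
/-- `im (Hⁿ(μ) → Hⁿ(E)) = Hⁿ(E)[m]`. -/
theorem kummer_nsmul_eq_zero_iff (n : ℕ) (x : levelCohomology 𝒰 E n) :
    m • x = 0 ↔ ∃ z, (Hmap 𝒰 ι n).hom z = x := by
  rw [← Hmap_nsmul_id_apply 𝒰 m n x]
  exact Hmap_g_eq_zero_iff 𝒰 hK n x

include hK in
/-- `H⁰(μ) → H⁰(E)` is injective. -/
theorem Hmap_ι_zero_injective : Function.Injective (Hmap 𝒰 ι 0).hom := by
  have := Hmap_f_zero_injective 𝒰 hK
  exact this

include hK in
/-- `μ` is killed by `m`. -/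
lemma nsmul_eq_zero_of_kummer (z : μ) : m • z = 0 := by
  have hf : Function.Injective ι.hom := (Rep.mono_iff_injective ι).1 hK.mono_f
  apply hf
  rw [map_nsmul, map_zero, ← nsmul_id_hom_apply m (ι.hom z)]
  exact congrArg (fun φ : μ ⟶ E => φ.hom z) w

omit [IsDiscrete 𝒰 E] in
include hK in
/-- The cohomology of `μ` is killed by `m`. -/
theorem nsmul_levelCohomology_eq_zero (n : ℕ) (z : levelCohomology 𝒰 μ n) : m • z = 0 := by
  have h0 : (m • 𝟙 μ : μ ⟶ μ) = 0 := by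
    refine Rep.hom_ext ?_
    ext a
    show (m • 𝟙 μ : μ ⟶ μ).hom a = 0
    rw [nsmul_id_hom_apply]
    exact nsmul_eq_zero_of_kummer hK a
  rw [← Hmap_nsmul_id_apply 𝒰 m n z, h0, Hmap_zero]
  rfl

include hK in
/-- **(K3)-shape**: if `Hⁿ(E)` is `m`-divisible and `Hⁿ⁺¹(E)` has no `m`-torsion then
`Hⁿ⁺¹(μ) = 0`. -/
theorem eq_zero_of_divisible_of_torsionFree (n : ℕ)
    (hdiv : ∀ y : levelCohomology 𝒰 E n, ∃ x : levelCohomology 𝒰 E n, m • x = y)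
    (htor : ∀ x : levelCohomology 𝒰 E (n + 1), m • x = 0 → x = 0)
    (z : levelCohomology 𝒰 μ (n + 1)) : z = 0 := by
  have h1 : (Hmap 𝒰 ι (n + 1)).hom z = 0 := by
    apply htor
    rw [← map_nsmul, nsmul_levelCohomology_eq_zero 𝒰 hK (n + 1) z, map_zero]
  obtain ⟨x, rfl⟩ := (Hmap_ι_eq_zero_iff 𝒰 hK n z).1 h1
  exact (kummerδ_eq_zero_iff 𝒰 hK n x).2 (hdiv x)

include hK in
theorem subsingleton_of_divisible_of_torsionFree (n : ℕ)
    (hdiv : ∀ y : levelCohomology 𝒰 E n, ∃ x : levelCohomology 𝒰 E n, m • x = y)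
    (htor : ∀ x : levelCohomology 𝒰 E (n + 1), m • x = 0 → x = 0) :
    Subsingleton (levelCohomology 𝒰 μ (n + 1)) :=
  ⟨fun a b => by
    rw [eq_zero_of_divisible_of_torsionFree 𝒰 hK n hdiv htor a,
      eq_zero_of_divisible_of_torsionFree 𝒰 hK n hdiv htor b]⟩

/-- The three exactness statements in submodule form. -/
theorem ker_kummerδ (n : ℕ) :
    LinearMap.ker (kummerδ 𝒰 hK n).hom =
      LinearMap.range (m • LinearMap.id : levelCohomology 𝒰 E n →ₗ[k] levelCohomology 𝒰 E n) := by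
  ext x
  rw [LinearMap.mem_ker, kummerδ_eq_zero_iff, LinearMap.mem_range]
  rfl

theorem range_kummerδ (n : ℕ) :
    LinearMap.range (kummerδ 𝒰 hK n).hom = LinearMap.ker (Hmap 𝒰 ι (n + 1)).hom := by
  ext z
  rw [LinearMap.mem_ker, Hmap_ι_eq_zero_iff 𝒰 hK, LinearMap.mem_range]

include hK in
theorem range_Hmap_ι (n : ℕ) :
    LinearMap.range (Hmap 𝒰 ι n).hom =
      LinearMap.ker (m • LinearMap.id : levelCohomology 𝒰 E n →ₗ[k] levelCohomology 𝒰 E n) := by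
  ext x
  rw [LinearMap.mem_ker, LinearMap.mem_range, ← kummer_nsmul_eq_zero_iff 𝒰 hK]
  rfl

end Kummer

end Fermat.Agent.S55.CF
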