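/-
S55 / ALG10 (part 2): low-degree dictionary for the long exact sequence of level cohomology:
`H⁰` = invariants, coefficient maps on low-degree representatives, and the connecting
homomorphisms `H⁰ ⟶ H¹`, `H¹ ⟶ H²` on representatives.
-/
import Fermat.Agent.S55.CF.LESElem
import Fermat.Agent.S55.LevelH1
set_option autoImplicit false
open CategoryTheory groupCohomology
namespace Fermat.Agent.S55.CF
open Fermat.Agent.S55.Level
universe u
variable {k G : Type u} [CommRing k] [Group G] (𝒰 : LevelStructure G)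

section LowDegree

variable (A : Rep.{u} k G) [IsDiscrete 𝒰 A]

/-- An invariant vector as a level cocycle of degree `0`. -/
noncomputable def invariantsToLevelCocycles : A.ρ.invariants →ₗ[k] levelCocycles 𝒰 A 0 :=
  ((cochainsIso₀ A).inv.hom.comp A.ρ.invariants.subtype).codRestrict _ (by
    rintro ⟨a, ha⟩
    refine ⟨by rw [levelCochains_zero]; trivial, ?_⟩
    show (inhomogeneousCochains.d A 0).hom ((cochainsIso₀ A).inv.hom a) = 0
    rw [d_cochainsIso₀_inv]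
    have : (d₀₁ A).hom a = 0 := by
      ext g
      simp [ha g]
      rfl
    rw [this, map_zero])

/-- The projection from invariants to `H⁰` of the level complex. -/
noncomputable def levelH0π : A.ρ.invariants →ₗ[k] levelCohomology 𝒰 A 0 :=
  (levelπ 𝒰 A 0).hom.comp (invariantsToLevelCocycles 𝒰 A)

lemma levelH0π_injective : Function.Injective (levelH0π 𝒰 A) := by
  intro a b h
  have h1 := levelπ_zero_injective 𝒰 A h
  have h2 : (cochainsIso₀ A).inv.hom a.1 = (cochainsIso₀ A).inv.hom b.1 :=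
    congrArg Subtype.val h1
  have h3 : Function.Injective (cochainsIso₀ A).inv.hom :=
    (ModuleCat.mono_iff_injective _).1 inferInstance
  exact Subtype.ext (h3 h2)

lemma levelH0π_surjective : Function.Surjective (levelH0π 𝒰 A) := by
  intro x
  obtain ⟨z, rfl⟩ := levelπ_surjective 𝒰 A 0 x
  have h1 : (cochainsIso₀ A).inv.hom ((cochainsIso₀ A).hom.hom z.1) = z.1 :=
    congrArg (fun φ => ModuleCat.Hom.hom φ z.1) (cochainsIso₀ A).hom_inv_id
  have h2 : (d₀₁ A).hom ((cochainsIso₀ A).hom.hom z.1) = 0 := by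
    apply cochainsIso₁_inv_injective
    rw [← d_cochainsIso₀_inv, map_zero, h1]
    exact z.2.2
  refine ⟨⟨(cochainsIso₀ A).hom.hom z.1, fun g => ?_⟩, ?_⟩
  · have := congrFun h2 g
    rw [d₀₁_hom_apply] at this
    exact sub_eq_zero.1 this
  · show (levelπ 𝒰 A 0).hom _ = (levelπ 𝒰 A 0).hom z
    congr 1
    exact Subtype.ext h1

/-- `H⁰` of the level complex is the module of invariants. -/
noncomputable def levelH0Equiv : A.ρ.invariants ≃ₗ[k] levelCohomology 𝒰 A 0 :=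
  LinearEquiv.ofBijective (levelH0π 𝒰 A) ⟨levelH0π_injective 𝒰 A, levelH0π_surjective 𝒰 A⟩

@[simp]
lemma levelH0Equiv_apply (a : A.ρ.invariants) : levelH0Equiv 𝒰 A a = levelH0π 𝒰 A a := rfl

variable {A} {B : Rep.{u} k G} [IsDiscrete 𝒰 B]

lemma Hmap_levelH0π (φ : A ⟶ B) (a : A.ρ.invariants) (b : B.ρ.invariants)
    (h : φ.hom a.1 = b.1) : (Hmap 𝒰 φ 0).hom (levelH0π 𝒰 A a) = levelH0π 𝒰 B b := by
  refine homologyMap_levelπ _ 0 _ _ ?_
  funext g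
  exact h

lemma Hmap_levelH1π (φ : A ⟶ B) (z : levelCocycles₁ 𝒰 A) (z' : levelCocycles₁ 𝒰 B)
    (h : ∀ g, φ.hom (z.1 g) = z'.1 g) :
    (Hmap 𝒰 φ 1).hom (levelH1π 𝒰 A z) = levelH1π 𝒰 B z' := by
  refine homologyMap_levelπ _ 1 _ _ ?_
  funext g
  exact h (g 0)

lemma Hmap_levelH2π (φ : A ⟶ B) (z : levelCocycles₂ 𝒰 A) (z' : levelCocycles₂ 𝒰 B)
    (h : ∀ g, φ.hom (z.1 g) = z'.1 g) :
    (Hmap 𝒰 φ 2).hom (levelH2π 𝒰 A z) = levelH2π 𝒰 B z' := by
  refine homologyMap_levelπ _ 2 _ _ ?_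
  funext g
  exact h (g 0, g 1)

end LowDegree

section DeltaLow

variable {X : ShortComplex (Rep.{u} k G)} [IsDiscrete 𝒰 X.X₁] [IsDiscrete 𝒰 X.X₂]
  [IsDiscrete 𝒰 X.X₃] (hX : X.ShortExact)

/-- The connecting homomorphism `H⁰(X₃) ⟶ H¹(X₁)` on representatives: lift the invariant
vector `c` to `b`, then `δ c` is the class of `σ ↦ σ b - b`. -/
theorem levelδ_levelH0π (c : X.X₃.ρ.invariants) (b : X.X₂) (hb : X.g.hom b = c.1)
    (z₁ : levelCocycles₁ 𝒰 X.X₁) (hz₁ : ∀ σ, X.f.hom (z₁.1 σ) = X.X₂.ρ σ b - b) :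
    (levelδ 𝒰 hX 0 1 rfl).hom (levelH0π 𝒰 X.X₃ c) = levelH1π 𝒰 X.X₁ z₁ := by
  refine levelδ_levelπ 𝒰 hX 0 (invariantsToLevelCocycles 𝒰 X.X₃ c)
    ⟨(cochainsIso₀ X.X₂).inv.hom b, by rw [levelCochains_zero]; trivial⟩ (fun g => hb)
    (levelCocycles₁ToLevelCocycles 𝒰 X.X₁ z₁) (fun g => ?_)
  show X.f.hom (z₁.1 (g 0)) = _
  rw [hz₁, d_cochainsIso₀_inv]
  rfl

/-- The connecting homomorphism `H¹(X₃) ⟶ H²(X₁)` on representatives. -/
theorem levelδ_levelH1π (z₃ : levelCocycles₁ 𝒰 X.X₃) (y : G → X.X₂) (hyl : IsLevel₁ 𝒰 y)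
    (hy : ∀ σ, X.g.hom (y σ) = z₃.1 σ) (z₁ : levelCocycles₂ 𝒰 X.X₁)
    (hz₁ : ∀ σ τ, X.f.hom (z₁.1 (σ, τ)) = X.X₂.ρ σ (y τ) - y (σ * τ) + y σ) :
    (levelδ 𝒰 hX 1 2 rfl).hom (levelH1π 𝒰 X.X₃ z₃) = levelH2π 𝒰 X.X₁ z₁ := by
  refine levelδ_levelπ 𝒰 hX 1 (levelCocycles₁ToLevelCocycles 𝒰 X.X₃ z₃)
    ⟨(cochainsIso₁ X.X₂).inv.hom y, (mem_levelCochains₁_iff 𝒰 X.X₂ y).2 hyl⟩
    (fun g => hy (g 0)) (levelCocycles₂ToLevelCocycles 𝒰 X.X₁ z₁) (fun g => ?_)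
  show X.f.hom (z₁.1 (g 0, g 1)) = _
  rw [hz₁, d_cochainsIso₁_inv]
  rfl

end DeltaLow
end Fermat.Agent.S55.CF
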