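/-
S55 / GLO12b part 2 (helper4): the finite-level ideal-class chases from MINIMAL data.

Data over `G`: `i : E ⟶ M` injective (units into the multiplicative group) and a divisor map
`dv : M ⟶ I` whose kernel is the image of `i`.  The modules `P = M/E` (principal ideals) and
`Cl = I/dv(M)` (ideal classes) are built here as explicit quotients (`cokerRep`), with the two short
exact sequences `cokerRep_shortExact`, `jmap_shortExact`, and the comparison maps under a change of
group (`cokerMap`).  Consequences (from `IdealChase.lean`):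

* `exists_ideal_δδ_eq`: a class of `H²(G,E)` dying in `H²(G,M)` is the double boundary of the class
  of an ideal `D` with invariant ideal class, if `H¹(G,I) = 0`;
* `nsmul_map_δδ_ideal_eq_zero` = (B2′) for one ideal: if `m • D` becomes principal over `H`, then `m`
  kills the image over `H` of that double boundary;
* `exists_cocycle_δ_eq`, `exists_map_eq_nsmul_of_capitulates`: pull-back to the units for a class of
  `H²(G,M)` with zero image in `H²(G,I)`.
-/
import Fermat.Agent.S55.CF.IdealChase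
import Fermat.Agent.S55.CF.Kummer

set_option autoImplicit false

namespace Fermat.Agent.S55.CF.IdealChase

open CategoryTheory groupCohomology Rep Limits

universe u

section Coker

variable {k G : Type u} [CommRing k] [Group G] {A B C : Rep.{u} k G}

/-- The range of a morphism of representations, as a submodule. -/
def rangeSub (φ : A ⟶ B) : Submodule k B.V := LinearMap.range φ.hom.toLinearMap

lemma mem_rangeSub (φ : A ⟶ B) (b : B.V) : b ∈ rangeSub φ ↔ ∃ a : A.V, φ.hom a = b := Iff.rfl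

lemma rangeSub_le_comap (φ : A ⟶ B) (g : G) : rangeSub φ ≤ (rangeSub φ).comap (B.ρ g) := by
  rintro _ ⟨a, rfl⟩
  exact ⟨A.ρ g a, Rep.hom_comm_apply φ g a⟩

/-- The cokernel of a morphism of representations, as an explicit quotient. -/
noncomputable def cokerRep (φ : A ⟶ B) : Rep.{u} k G :=
  Rep.quotient B (rangeSub φ) (rangeSub_le_comap φ)

/-- The projection onto the explicit cokernel. -/
noncomputable def cokerπ (φ : A ⟶ B) : B ⟶ cokerRep φ :=
  Rep.mkQ B (rangeSub φ) (rangeSub_le_comap φ)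

lemma cokerπ_surjective (φ : A ⟶ B) : Function.Surjective (cokerπ φ).hom :=
  Submodule.mkQ_surjective _

lemma cokerπ_eq_zero_iff (φ : A ⟶ B) (b : B.V) :
    (cokerπ φ).hom b = 0 ↔ ∃ a : A.V, φ.hom a = b :=
  (Submodule.Quotient.mk_eq_zero _).trans (mem_rangeSub φ b)

lemma comp_cokerπ (φ : A ⟶ B) : φ ≫ cokerπ φ = 0 := by
  refine Rep.hom_ext ?_
  ext a
  exact (cokerπ_eq_zero_iff φ _).2 ⟨a, rfl⟩

/-- The explicit cokernel sequence is short exact when `φ` is injective. -/
lemma cokerRep_shortExact (φ : A ⟶ B) (hφ : Function.Injective φ.hom) :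
    (ShortComplex.mk φ (cokerπ φ) (comp_cokerπ φ)).ShortExact :=
  rep_shortExact_of _ hφ (cokerπ_surjective φ) fun x hx => (cokerπ_eq_zero_iff φ x).1 hx

/-- Descent of a morphism to the explicit cokernel. -/
noncomputable def cokerDesc (φ : A ⟶ B) (ψ : B ⟶ C) (h : φ ≫ ψ = 0) : cokerRep φ ⟶ C :=
  Rep.ofHom ⟨(rangeSub φ).liftQ ψ.hom.toLinearMap (by
      rintro _ ⟨a, rfl⟩
      exact congrArg (fun t => t.hom a) h), fun g => by
      apply Submodule.linearMap_qext
      ext b
      exact Rep.hom_comm_apply ψ g b⟩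

lemma cokerDesc_cokerπ_apply (φ : A ⟶ B) (ψ : B ⟶ C) (h : φ ≫ ψ = 0) (b : B.V) :
    (cokerDesc φ ψ h).hom ((cokerπ φ).hom b) = ψ.hom b := rfl

lemma cokerπ_cokerDesc (φ : A ⟶ B) (ψ : B ⟶ C) (h : φ ≫ ψ = 0) :
    cokerπ φ ≫ cokerDesc φ ψ h = ψ := by
  refine Rep.hom_ext ?_
  ext b
  rfl

end Coker

section CokerMap

variable {k G H : Type u} [CommRing k] [Group G] [Group H] (f : H →* G)
  {A B : Rep.{u} k G} {A' B' : Rep.{u} k H} (φ : A ⟶ B) (φ' : A' ⟶ B')
  (α : res f A ⟶ A') (β : res f B ⟶ B')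
  (sq : (resFunctor f).map φ ≫ β = α ≫ φ')

include sq in
lemma rangeSub_le_comap_of_sq :
    rangeSub φ ≤ (rangeSub φ').comap β.hom.toLinearMap := by
  rintro _ ⟨a, rfl⟩
  exact ⟨α.hom a, (congrArg (fun t => t.hom a) sq).symm⟩

/-- The map induced on explicit cokernels by a commutative square, under change of group. -/
noncomputable def cokerMap : res f (cokerRep φ) ⟶ cokerRep φ' :=
  Rep.ofHom ⟨Submodule.mapQ (rangeSub φ) (rangeSub φ') β.hom.toLinearMap
      (rangeSub_le_comap_of_sq f φ φ' α β sq), fun h => by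
      apply Submodule.linearMap_qext
      ext b
      exact congrArg (Submodule.Quotient.mk (p := rangeSub φ')) (Rep.hom_comm_apply β h b)⟩

lemma cokerMap_cokerπ_apply (b : B.V) :
    (cokerMap f φ φ' α β sq).hom ((cokerπ φ).hom b) = (cokerπ φ').hom (β.hom b) := rfl

lemma cokerπ_cokerMap :
    (resFunctor f).map (cokerπ φ) ≫ cokerMap f φ φ' α β sq = β ≫ cokerπ φ' := by
  refine Rep.hom_ext ?_
  ext b
  rfl

end CokerMap

section OneLayer

variable {k G : Type u} [CommRing k] [Group G] {E M I : Rep.{u} k G} (i : E ⟶ M) (dv : M ⟶ I)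
  (hker : ∀ m : M.V, dv.hom m = 0 ↔ ∃ e : E.V, i.hom e = m)

include hker in
lemma i_comp_dv : i ≫ dv = 0 := by
  refine Rep.hom_ext ?_
  ext e
  exact (hker _).2 ⟨e, rfl⟩

/-- The inclusion of the principal part `M/E` into `I`. -/
noncomputable def jmap : cokerRep i ⟶ I := cokerDesc i dv (i_comp_dv i dv hker)

lemma jmap_cokerπ_apply (m : M.V) : (jmap i dv hker).hom ((cokerπ i).hom m) = dv.hom m := rfl

lemma cokerπ_jmap : cokerπ i ≫ jmap i dv hker = dv := cokerπ_cokerDesc _ _ _

lemma jmap_injective : Function.Injective (jmap i dv hker).hom := by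
  rw [injective_iff_map_eq_zero]
  intro x hx
  obtain ⟨m, rfl⟩ := cokerπ_surjective i x
  rw [jmap_cokerπ_apply] at hx
  exact (cokerπ_eq_zero_iff i m).2 ((hker m).1 hx)

lemma jmap_comp_cokerπ : jmap i dv hker ≫ cokerπ dv = 0 := by
  refine Rep.hom_ext ?_
  ext x
  obtain ⟨m, rfl⟩ := cokerπ_surjective i x
  exact (cokerπ_eq_zero_iff dv _).2 ⟨m, rfl⟩

/-- The sequence `0 → M/E → I → I/dv(M) → 0` is short exact. -/
lemma jmap_shortExact :
    (ShortComplex.mk (jmap i dv hker) (cokerπ dv) (jmap_comp_cokerπ i dv hker)).ShortExact :=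
  rep_shortExact_of _ (jmap_injective i dv hker) (cokerπ_surjective dv) fun x hx => by
    obtain ⟨m, hm⟩ := (cokerπ_eq_zero_iff dv x).1 hx
    exact ⟨(cokerπ i).hom m, hm⟩

end OneLayer

section Pair

variable {k G H : Type u} [CommRing k] [Group G] [Group H] (f : H →* G)
  {E M I : Rep.{u} k G} (i : E ⟶ M) (dv : M ⟶ I)
  (hi : Function.Injective i.hom)
  (hker : ∀ m : M.V, dv.hom m = 0 ↔ ∃ e : E.V, i.hom e = m)
  {E' M' I' : Rep.{u} k H} (i' : E' ⟶ M') (dv' : M' ⟶ I')
  (hi' : Function.Injective i'.hom)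
  (hker' : ∀ m : M'.V, dv'.hom m = 0 ↔ ∃ e : E'.V, i'.hom e = m)
  (φE : res f E ⟶ E') (φM : res f M ⟶ M') (φI : res f I ⟶ I')
  (sqE : (resFunctor f).map i ≫ φM = φE ≫ i')
  (sqM : (resFunctor f).map dv ≫ φI = φM ≫ dv')

include sqM in
lemma sq_jmap :
    (resFunctor f).map (jmap i dv hker) ≫ φI = cokerMap f i i' φE φM sqE ≫ jmap i' dv' hker' := by
  refine Rep.hom_ext ?_
  ext x
  obtain ⟨m, rfl⟩ := cokerπ_surjective i x
  exact congrArg (fun t => t.hom m) sqM

/-- A class of `H²(G,E)` dying in `H²(G,M)` is the double boundary of the class of an ideal `D`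
with invariant ideal class, if `H¹(G,I) = 0`. -/
theorem exists_ideal_δδ_eq (hI : IsZero (groupCohomology I 1))
    (x : groupCohomology E 2) (hx : (map (MonoidHom.id G) i 2).hom x = 0) :
    ∃ (D : I.V) (hD : (cokerπ dv).hom D ∈ (cokerRep dv).ρ.invariants),
      δδ (cokerRep_shortExact i hi) (jmap_shortExact i dv hker) 0
        ((H0Iso (cokerRep dv)).inv ⟨(cokerπ dv).hom D, hD⟩) = x := by
  obtain ⟨c, hc⟩ := exists_invariant_δδ_eq (cokerRep_shortExact i hi) (jmap_shortExact i dv hker)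
    hI x hx
  obtain ⟨D, hD⟩ := cokerπ_surjective dv c.1
  refine ⟨D, hD ▸ c.2, ?_⟩
  rw [← hc]
  congr 2
  exact Subtype.ext hD

include hi' hker' sqE sqM in
/-- **(B2′) for one ideal**: if `m • D` becomes principal over `H`, then `m` kills the image over
`H` of the double boundary of the class of `D`. -/
theorem nsmul_map_δδ_ideal_eq_zero (D : I.V)
    (hD : (cokerπ dv).hom D ∈ (cokerRep dv).ρ.invariants) (m : ℕ)
    (hcap : ∃ β : M'.V, φI.hom (m • D) = dv'.hom β) :
    m • (map f φE 2).hom (δδ (cokerRep_shortExact i hi) (jmap_shortExact i dv hker) 0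
        ((H0Iso (cokerRep dv)).inv ⟨(cokerπ dv).hom D, hD⟩)) = 0 := by
  refine nsmul_map_δδ_H0_eq_zero f (cokerRep_shortExact i hi) (jmap_shortExact i dv hker)
    (cokerRep_shortExact i' hi') (jmap_shortExact i' dv' hker') φE φM
    (cokerMap f i i' φE φM sqE) φI (cokerMap f dv dv' φM φI sqM) sqE
    (cokerπ_cokerMap f i i' φE φM sqE) (sq_jmap f i dv hker i' dv' hker' φE φM φI sqE sqM)
    (cokerπ_cokerMap f dv dv' φM φI sqM) m ⟨(cokerπ dv).hom D, hD⟩ ?_
  obtain ⟨β, hβ⟩ := hcap
  show m • (cokerMap f dv dv' φM φI sqM).hom ((cokerπ dv).hom D) = 0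
  rw [cokerMap_cokerπ_apply, ← map_nsmul, ← map_nsmul, hβ]
  exact (cokerπ_eq_zero_iff dv' _).2 ⟨β, rfl⟩

/-- A class of `H²(G,M)` with zero image in `H²(G,I)`: its image in `H²(G,M/E)` is the boundary of
the class of a 1-cocycle with values in the ideal classes. -/
theorem exists_cocycle_δ_eq (y : groupCohomology M 2)
    (hy : (map (MonoidHom.id G) dv 2).hom y = 0) :
    ∃ c : cocycles₁ (cokerRep dv),
      (δ (jmap_shortExact i dv hker) 1 2 rfl).hom (H1π (cokerRep dv) c) =
        (map (MonoidHom.id G) (cokerπ i) 2).hom y := by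
  have hy' : (map (MonoidHom.id G) (jmap i dv hker) 2).hom
      ((map (MonoidHom.id G) (cokerπ i) 2).hom y) = 0 := by
    have h := map_id_comp (cokerπ i) (jmap i dv hker) 2
    rw [cokerπ_jmap] at h
    rw [← hy, h]
    rfl
  obtain ⟨z, hz⟩ := exists_δ_eq_map_π (jmap_shortExact i dv hker) 1 y hy'
  induction z using H1_induction_on with
  | h c => exact ⟨c, hz⟩

include hi' hker' sqE sqM in
/-- **Pull-back to the units**: if the values of the cocycle `c` of ideal classes capitulate over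
`H` up to `m`, then `m • (image of y over H)` comes from `H²(H,E')`. -/
theorem exists_map_eq_nsmul_of_capitulates (y : groupCohomology M 2)
    (c : cocycles₁ (cokerRep dv))
    (hc : (δ (jmap_shortExact i dv hker) 1 2 rfl).hom (H1π (cokerRep dv) c) =
        (map (MonoidHom.id G) (cokerπ i) 2).hom y) (m : ℕ)
    (hcap : ∀ g : G, ∃ D : I.V, (cokerπ dv).hom D = c g ∧
      ∃ β : M'.V, φI.hom (m • D) = dv'.hom β) :
    ∃ e : groupCohomology E' 2,
      (map (MonoidHom.id H) i' 2).hom e = m • (map f φM 2).hom y := by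
  refine exists_map_eq_nsmul_of_δ_eq f (jmap_shortExact i dv hker)
    (cokerRep_shortExact i' hi') (jmap_shortExact i' dv' hker') φM
    (cokerMap f i i' φE φM sqE) φI (cokerMap f dv dv' φM φI sqM)
    (cokerπ_cokerMap f i i' φE φM sqE) (sq_jmap f i dv hker i' dv' hker' φE φM φI sqE sqM)
    (cokerπ_cokerMap f dv dv' φM φI sqM) 1 m y (H1π (cokerRep dv) c) hc ?_
  have h1 : (map f (cokerMap f dv dv' φM φI sqM) 1).hom (H1π (cokerRep dv) c) =
      H1π (cokerRep dv') (mapCocycles₁ f (cokerMap f dv dv' φM φI sqM) c) :=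
    H1π_comp_map_apply f (cokerMap f dv dv' φM φI sqM) c
  rw [h1, ← map_nsmul]
  have h2 : m • mapCocycles₁ f (cokerMap f dv dv' φM φI sqM) c = 0 := by
    apply Subtype.ext
    funext h
    obtain ⟨D, hD, β, hβ⟩ := hcap (f h)
    show m • (cokerMap f dv dv' φM φI sqM).hom (c (f h)) = 0
    rw [← hD, cokerMap_cokerπ_apply, ← map_nsmul, ← map_nsmul, hβ]
    exact (cokerπ_eq_zero_iff dv' _).2 ⟨β, rfl⟩
  rw [h2, map_zero]

end Pair

end Fermat.Agent.S55.CF.IdealChase
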