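/-
S55 / ALG10 (part 5): elementwise `p`-primary calculus (companion of `PPart.lean`):
`p`-primary elements, elements killed by an integer prime to `p`, splitting of torsion elements.
-/
import Fermat.Agent.S55.PPart

set_option autoImplicit false

namespace Fermat.Agent.S55.CF

open Fermat.Agent.S55.PPart

variable (p : ℕ) {X Y : Type*} [AddCommGroup X] [AddCommGroup Y]

/-- `x` is `p`-primary: killed by a power of `p`. -/
def IsPPrim (x : X) : Prop := ∃ n : ℕ, p ^ n • x = 0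

/-- `x` is killed by an integer prime to `p`. -/
def IsPTrivElt (x : X) : Prop := ∃ m : ℕ, m.Coprime p ∧ m • x = 0

variable {p}

lemma isPPrim_zero : IsPPrim p (0 : X) := ⟨0, by simp⟩

lemma IsPPrim.of_nsmul_eq_zero {x : X} (h : p • x = 0) : IsPPrim p x := ⟨1, by simpa using h⟩

lemma IsPPrim.add {x y : X} (hx : IsPPrim p x) (hy : IsPPrim p y) : IsPPrim p (x + y) := by
  obtain ⟨a, ha⟩ := hx
  obtain ⟨b, hb⟩ := hy
  refine ⟨a + b, ?_⟩
  rw [smul_add, pow_add, mul_smul, smul_comm (p ^ a) (p ^ b) x, ha, smul_zero, zero_add,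
    mul_smul, hb, smul_zero]

lemma IsPPrim.neg {x : X} (hx : IsPPrim p x) : IsPPrim p (-x) := by
  obtain ⟨a, ha⟩ := hx
  exact ⟨a, by rw [smul_neg, ha, neg_zero]⟩

lemma IsPPrim.sub {x y : X} (hx : IsPPrim p x) (hy : IsPPrim p y) : IsPPrim p (x - y) := by
  rw [sub_eq_add_neg]; exact hx.add hy.neg

lemma IsPPrim.nsmul {x : X} (hx : IsPPrim p x) (c : ℕ) : IsPPrim p (c • x) := by
  obtain ⟨a, ha⟩ := hx
  exact ⟨a, by rw [smul_comm, ha, smul_zero]⟩

lemma IsPPrim.map {x : X} (hx : IsPPrim p x) (f : X →+ Y) : IsPPrim p (f x) := by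
  obtain ⟨a, ha⟩ := hx
  exact ⟨a, by rw [← map_nsmul, ha, map_zero]⟩

lemma IsPPrim.of_map {x : X} (f : X →+ Y) (hf : Function.Injective f) (hx : IsPPrim p (f x)) :
    IsPPrim p x := by
  obtain ⟨a, ha⟩ := hx
  exact ⟨a, hf (by rw [map_nsmul, ha, map_zero])⟩

lemma IsPPrim.sum {ι : Type*} (s : Finset ι) (f : ι → X) (h : ∀ i ∈ s, IsPPrim p (f i)) :
    IsPPrim p (∑ i ∈ s, f i) := by
  classical
  induction s using Finset.induction_on with
  | empty => simpa using isPPrim_zero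
  | insert a s ha ih =>
    rw [Finset.sum_insert ha]
    exact (h a (Finset.mem_insert_self a s)).add
      (ih fun i hi => h i (Finset.mem_insert_of_mem hi))

lemma isPTrivElt_zero : IsPTrivElt p (0 : X) := ⟨1, Nat.coprime_one_left p, by simp⟩

lemma IsPTrivElt.map {x : X} (hx : IsPTrivElt p x) (f : X →+ Y) : IsPTrivElt p (f x) := by
  obtain ⟨m, hm, h⟩ := hx
  exact ⟨m, hm, by rw [← map_nsmul, h, map_zero]⟩

lemma IsPTrivElt.add {x y : X} (hx : IsPTrivElt p x) (hy : IsPTrivElt p y) :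
    IsPTrivElt p (x + y) := by
  obtain ⟨m, hm, h⟩ := hx
  obtain ⟨m', hm', h'⟩ := hy
  refine ⟨m * m', Nat.Coprime.mul_left hm hm', ?_⟩
  rw [smul_add, mul_comm, mul_smul, h, smul_zero, mul_comm, mul_smul, h', smul_zero, add_zero]

lemma IsPTrivElt.neg {x : X} (hx : IsPTrivElt p x) : IsPTrivElt p (-x) := by
  obtain ⟨m, hm, h⟩ := hx
  exact ⟨m, hm, by rw [smul_neg, h, neg_zero]⟩

lemma IsPTrivElt.nsmul {x : X} (hx : IsPTrivElt p x) (c : ℕ) : IsPTrivElt p (c • x) := by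
  obtain ⟨m, hm, h⟩ := hx
  exact ⟨m, hm, by rw [smul_comm, h, smul_zero]⟩

lemma pTriv_iff_forall_isPTrivElt : PTriv p X ↔ ∀ x : X, IsPTrivElt p x := Iff.rfl

/-- An element that is both `p`-primary and killed by an integer prime to `p` vanishes. -/
lemma eq_zero_of_isPPrim_of_isPTrivElt (hp : p.Prime) {x : X} (h1 : IsPPrim p x)
    (h2 : IsPTrivElt p x) : x = 0 := by
  obtain ⟨k, hk⟩ := h1
  obtain ⟨m, hm, hmx⟩ := h2
  rcases Nat.eq_zero_or_pos k with rfl | hk0
  · simpa using hk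
  have hq : 1 < p ^ k := Nat.one_lt_pow hk0.ne' hp.one_lt
  obtain ⟨u, t, hut⟩ := exists_mul_eq_one_add hq (Nat.Coprime.pow_right k hm)
  have h3 : (u * m) • x = 0 := by rw [mul_smul, hmx, smul_zero]
  rw [hut, add_smul, one_smul, mul_smul, hk, smul_zero, add_zero] at h3
  exact h3

/-- A `p`-torsion element killed by an integer prime to `p` vanishes. -/
lemma eq_zero_of_nsmul_eq_zero_of_isPTrivElt (hp : p.Prime) {x : X} (h1 : p • x = 0)
    (h2 : IsPTrivElt p x) : x = 0 :=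
  eq_zero_of_isPPrim_of_isPTrivElt hp (IsPPrim.of_nsmul_eq_zero h1) h2

/-- Splitting of a torsion element into a prime-to-`p` part and a `p`-primary part. -/
lemma exists_split (hp : p.Prime) {x : X} {N : ℕ} (hN : 0 < N) (h : N • x = 0) :
    ∃ x₁ x₂ : X, x = x₁ + x₂ ∧ IsPTrivElt p x₁ ∧ IsPPrim p x₂ := by
  obtain ⟨a, m, hm, rfl⟩ := Nat.exists_eq_pow_mul_and_not_dvd hN.ne' p hp.ne_one
  have hmp : m.Coprime p := Nat.Coprime.symm ((Nat.Prime.coprime_iff_not_dvd hp).2 hm)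
  rcases Nat.eq_zero_or_pos a with rfl | ha
  · exact ⟨x, 0, by simp, ⟨m, hmp, by simpa using h⟩, isPPrim_zero⟩
  have hq : 1 < p ^ a := Nat.one_lt_pow ha.ne' hp.one_lt
  obtain ⟨u, t, hut⟩ := exists_mul_eq_one_add hq (Nat.Coprime.pow_right a hmp)
  refine ⟨-((t * p ^ a) • x), (u * m) • x, ?_, ⟨m, hmp, ?_⟩, ⟨a, ?_⟩⟩
  · rw [hut, add_smul, one_smul]; abel
  · rw [smul_neg, ← mul_smul, show m * (t * p ^ a) = t * (p ^ a * m) by ring, mul_smul, h,
      smul_zero, neg_zero]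
  · rw [← mul_smul, show p ^ a * (u * m) = u * (p ^ a * m) by ring, mul_smul, h, smul_zero]

/-- An element killed by an integer prime to `p` is divisible by `p`. -/
lemma IsPTrivElt.exists_nsmul_eq (hp : p.Prime) {x : X} (hx : IsPTrivElt p x) :
    ∃ y : X, p • y = x := by
  obtain ⟨m, hm, hmx⟩ := hx
  rcases Nat.lt_or_ge 1 m with h1 | h1
  · obtain ⟨u, t, hut⟩ := exists_mul_eq_one_add h1 (Nat.Coprime.symm hm)
    -- `u * p = 1 + t * m`
    refine ⟨u • x, ?_⟩
    rw [← mul_smul, mul_comm, hut, add_smul, one_smul, mul_smul, hmx, smul_zero, add_zero]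
  · interval_cases m
    · simp at hm
      exact absurd hm hp.ne_one
    · refine ⟨0, ?_⟩
      rw [smul_zero]
      simpa using hmx.symm

/-- If `x` is `p`-primary and a prime-to-`p` multiple of `x` is divisible by `p`, so is `x`. -/
lemma IsPPrim.exists_nsmul_eq_of_coprime (hp : p.Prime) {x y : X} (hx : IsPPrim p x) {m : ℕ}
    (hm : m.Coprime p) (h : m • x = p • y) : ∃ y' : X, p • y' = x := by
  obtain ⟨k, hk⟩ := hx
  rcases Nat.eq_zero_or_pos k with rfl | hk0
  · exact ⟨0, by rw [smul_zero]; simpa using hk.symm⟩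
  have hq : 1 < p ^ k := Nat.one_lt_pow hk0.ne' hp.one_lt
  obtain ⟨u, t, hut⟩ := exists_mul_eq_one_add hq (Nat.Coprime.pow_right k hm)
  refine ⟨u • y, ?_⟩
  have h3 : (u * m) • x = x := by
    rw [hut, add_smul, one_smul, mul_smul, hk, smul_zero, add_zero]
  rw [smul_comm, ← h, ← mul_smul, h3]

/-- A `p`-torsion element is fixed by any integer congruent to `1` mod `p`; in particular if
`m` is prime to `p` there is `u` with `(u * m) • x = x` for all `p`-torsion `x`. -/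
lemma exists_mul_nsmul_eq_self (hp : p.Prime) {m : ℕ} (hm : m.Coprime p) :
    ∃ u : ℕ, ∀ x : X, p • x = 0 → (u * m) • x = x := by
  obtain ⟨u, t, hut⟩ := exists_mul_eq_one_add hp.one_lt hm
  refine ⟨u, fun x hx => ?_⟩
  rw [hut, add_smul, one_smul, mul_smul, hx, smul_zero, add_zero]

end Fermat.Agent.S55.CF
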