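/-
S55 / GLO12b part 2 (helper4): from finite layers to level cohomology — the ideal-class side of
GLO12 in abstract form.

* `layerMap_infLayer`: inflation between layers is natural in the coefficients.
* `exists_levelInf_eq_family`, `exists_infLayer_eq_zero_family`, `isPTrivElt_of_layers`: transfer
  lemmas for a cofinal family `Uι : ι → Subgroup G` of members of the level structure.
* `IdealLayers p Uι i`: a system of ideal layers for `i : E ⟶ M` (`E` = units, `M` = multiplicative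
  group): modules of ideals `I a : Rep k (G ⧸ Uι a)`, divisor maps `dv a : M^U ⟶ I a` with kernel
  `E^U`, extension maps, `H¹(G ⧸ U, I a) = 0`, capitulation up to integers prime to `p`.
* `IdealLayers.isPTrivElt_of_Hmap_eq_zero` = (B2′): `ker (H²(G,E) → H²(G,M))` is torsion prime to `p`.
* `IdealLayers.exists_Hmap_eq_nsmul`: a class of `H²(G,M)` with a layer representative dying in
  `H²` of the ideals is, up to an integer prime to `p`, in the image of `H²(G,E)`.
* `pTriv_H1` = `h1P` of `BrauerHyp`: `H¹(G, M/E)` is torsion prime to `p` (given Hilbert 90).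
* `Hmap_g_eq_zero_of_layer`: the `p`-primary version of the pull-back, `π_* y = 0`.
-/
import Fermat.Agent.S55.CF.IdealData
import Fermat.Agent.S55.CF.PElem
import Fermat.Agent.S55.LevelLayer

set_option autoImplicit false

namespace Fermat.Agent.S55.CF.IdealLevel

open CategoryTheory groupCohomology Rep Limits
open Fermat.Agent.S55.Level Fermat.Agent.S55.LevelLayer Fermat.Agent.S55.CF.IdealChase

universe u w

section Transfer

variable {k G : Type u} [CommRing k] [Group G] (𝒰 : LevelStructure G) (p : ℕ)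
  {A B : Rep.{u} k G} [IsDiscrete 𝒰 A] [IsDiscrete 𝒰 B] (φ : A ⟶ B)

/-- Inflation between layers is natural in the coefficients. -/
lemma layerMap_infLayer {U V : Subgroup G} [U.Normal] [V.Normal] (h : V ≤ U) (n : ℕ) :
    groupCohomology.map (MonoidHom.id (G ⧸ U)) (layerMap φ (U := U)) n ≫ infLayer B h n =
      infLayer A h n ≫ groupCohomology.map (MonoidHom.id (G ⧸ V)) (layerMap φ (U := V)) n :=
  map_comm_of_sq (quotMap h) (layerMap φ (U := U)) (layerMap φ (U := V)) (layerIncl A h)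
    (layerIncl B h) rfl n

lemma layerMap_infLayer_apply {U V : Subgroup G} [U.Normal] [V.Normal] (h : V ≤ U) (n : ℕ)
    (x : groupCohomology (A.quotientToInvariants U) n) :
    (infLayer B h n).hom
        ((groupCohomology.map (MonoidHom.id (G ⧸ U)) (layerMap φ (U := U)) n).hom x) =
      (groupCohomology.map (MonoidHom.id (G ⧸ V)) (layerMap φ (U := V)) n).hom
        ((infLayer A h n).hom x) :=
  congrArg (fun t => t.hom x) (layerMap_infLayer φ h n)

end Transfer

section Family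

variable {k G : Type u} [CommRing k] [Group G] (𝒰 : LevelStructure G) (p : ℕ)
  {ι : Type w} (Uι : ι → Subgroup G) [∀ a, (Uι a).Normal]
  (hmem : ∀ a, Uι a ∈ 𝒰.sets) (hcof : ∀ U ∈ 𝒰.sets, ∃ a, Uι a ≤ U)
  {A B : Rep.{u} k G} [IsDiscrete 𝒰 A] [IsDiscrete 𝒰 B] (φ : A ⟶ B)

include hcof in
/-- Every class of level cohomology comes from a member of a cofinal family of layers. -/
lemma exists_levelInf_eq_family {n : ℕ} (x : levelCohomology 𝒰 A n) :
    ∃ (a : ι) (y : groupCohomology (A.quotientToInvariants (Uι a)) n),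
      (levelInf 𝒰 A (hmem a) n).hom y = x := by
  obtain ⟨U₀, hU₀, h⟩ := exists_levelInf_eq 𝒰 A x
  obtain ⟨a, ha⟩ := hcof U₀ hU₀
  obtain ⟨y, hy⟩ := h (Uι a) (hmem a) ha
  exact ⟨a, y, hy⟩

include hcof in
/-- A class of a layer dying in level cohomology dies in a smaller member of a cofinal family. -/
lemma exists_infLayer_eq_zero_family {n : ℕ} (a : ι)
    (y : groupCohomology (A.quotientToInvariants (Uι a)) n)
    (hy : (levelInf 𝒰 A (hmem a) n).hom y = 0) :
    ∃ (b : ι) (h : Uι b ≤ Uι a), (infLayer A h n).hom y = 0 := by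
  obtain ⟨V₀, hV₀, hV₀a, hall⟩ := exists_infLayer_eq_zero 𝒰 A (hmem a) y hy
  obtain ⟨b, hb⟩ := hcof V₀ hV₀
  exact ⟨b, hb.trans hV₀a, hall (Uι b) (hmem b) hb (hb.trans hV₀a)⟩

include hmem hcof in
/-- **Transfer from layers to level cohomology (kernels)**: if, on every layer of a cofinal family,
the kernel of `Hⁿ(A^U) → Hⁿ(B^U)` is killed by an integer prime to `p` after inflation to a smaller
layer, then the kernel of `Hⁿ(A) → Hⁿ(B)` on level cohomology is torsion prime to `p`. -/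
theorem isPTrivElt_of_layers {n : ℕ}
    (hlayer : ∀ (a : ι) (x : groupCohomology (A.quotientToInvariants (Uι a)) n),
      (groupCohomology.map (MonoidHom.id (G ⧸ Uι a)) (layerMap φ (U := Uι a)) n).hom x = 0 →
      ∃ (b : ι) (h : Uι b ≤ Uι a) (m : ℕ), m.Coprime p ∧ m • (infLayer A h n).hom x = 0)
    (x : levelCohomology 𝒰 A n) (hx : (Hmap 𝒰 φ n).hom x = 0) : IsPTrivElt p x := by
  obtain ⟨a, y, rfl⟩ := exists_levelInf_eq_family 𝒰 Uι hmem hcof x
  -- the image of `y` in `Hⁿ(B^U)` dies in level cohomology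
  have h1 : (levelInf 𝒰 B (hmem a) n).hom
      ((groupCohomology.map (MonoidHom.id (G ⧸ Uι a)) (layerMap φ (U := Uι a)) n).hom y) = 0 := by
    have := congrArg (fun t => t.hom y) (layerMap_comp_levelInf 𝒰 φ (hmem a) n)
    exact this.trans hx
  obtain ⟨b, hba, h2⟩ := exists_infLayer_eq_zero_family 𝒰 Uι hmem hcof a _ h1
  rw [layerMap_infLayer_apply] at h2
  obtain ⟨c, hcb, m, hm, h3⟩ := hlayer b _ h2
  refine ⟨m, hm, ?_⟩
  rw [← infLayer_levelInf_apply 𝒰 A hba (hmem a) (hmem b) n y,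
    ← infLayer_levelInf_apply 𝒰 A hcb (hmem b) (hmem c) n, ← map_nsmul, h3, map_zero]

end Family

section Layers

variable {k G : Type u} [CommRing k] [Group G] (p : ℕ)
  {ι : Type w} (Uι : ι → Subgroup G) [∀ a, (Uι a).Normal]
  {E M : Rep.{u} k G} (i : E ⟶ M)

/-- A **system of ideal layers** for `i : E ⟶ M` (units into the multiplicative group) over a family
of layers `Uι a`: for each layer a module of ideals `I a` over `G ⧸ Uι a` with a divisor map
`dv a : M^U ⟶ I a` whose kernel is `E^U`, extension maps between layers, vanishing of `H¹` of the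
ideal modules, and capitulation up to integers prime to `p`. -/
structure IdealLayers where
  /-- the module of ideals of the layer -/
  I : ∀ a : ι, Rep.{u} k (G ⧸ Uι a)
  /-- the divisor map of the layer -/
  dv : ∀ a : ι, M.quotientToInvariants (Uι a) ⟶ I a
  /-- extension of ideals to a smaller layer -/
  ext : ∀ {a b : ι} (h : Uι b ≤ Uι a), res (quotMap h) (I a) ⟶ I b
  hker : ∀ (a : ι) (m : (M.quotientToInvariants (Uι a)).V), (dv a).hom m = 0 ↔
    ∃ e : (E.quotientToInvariants (Uι a)).V, (layerMap i (U := Uι a)).hom e = m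
  ext_dv : ∀ {a b : ι} (h : Uι b ≤ Uι a),
    (resFunctor (quotMap h)).map (dv a) ≫ ext h = layerIncl M h ≫ dv b
  ext_comp : ∀ {a b c : ι} (h : Uι b ≤ Uι a) (h' : Uι c ≤ Uι b) (D : (I a).V),
    (ext h').hom ((ext h).hom D) = (ext (h'.trans h)).hom D
  hH1 : ∀ a, IsZero (groupCohomology (I a) 1)
  hcap : ∀ (a : ι) (D : (I a).V), ∃ (b : ι) (h : Uι b ≤ Uι a) (m : ℕ), m.Coprime p ∧
    ∃ β : (M.quotientToInvariants (Uι b)).V, (ext h).hom (m • D) = (dv b).hom β

namespace IdealLayers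

variable {p Uι i}
variable (𝓛 : IdealLayers p Uι i)

lemma ext_dv_apply {a b : ι} (h : Uι b ≤ Uι a) (x : (M.quotientToInvariants (Uι a)).V) :
    (𝓛.ext h).hom ((𝓛.dv a).hom x) = (𝓛.dv b).hom ((layerIncl M h).hom x) :=
  congrArg (fun t => t.hom x) (𝓛.ext_dv h)

omit 𝓛 in
/-- The restriction of an injective morphism to the invariants is injective. -/
lemma layerMap_injective (hi : Function.Injective i.hom) (a : ι) :
    Function.Injective (layerMap i (U := Uι a)).hom := by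
  intro x y hxy
  apply Subtype.ext
  apply hi
  exact congrArg Subtype.val hxy

variable (𝒰 : LevelStructure G) (hmem : ∀ a, Uι a ∈ 𝒰.sets)
  (hcof : ∀ U ∈ 𝒰.sets, ∃ a, Uι a ≤ U)

include hmem hcof in
/-- Finitely many ideals of a layer capitulate simultaneously. -/
lemma exists_cap_finset (a : ι) (s : Finset (𝓛.I a).V) :
    ∃ (b : ι) (h : Uι b ≤ Uι a) (m : ℕ), m.Coprime p ∧ ∀ D ∈ s,
      ∃ β : (M.quotientToInvariants (Uι b)).V, (𝓛.ext h).hom (m • D) = (𝓛.dv b).hom β := by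
  classical
  induction s using Finset.induction_on with
  | empty => exact ⟨a, le_rfl, 1, Nat.coprime_one_left p, fun D hD => absurd hD (Finset.notMem_empty D)⟩
  | insert D₀ s _ ih =>
    obtain ⟨b, hb, m, hm, hs⟩ := ih
    obtain ⟨b', hb', m', hm', β', hβ'⟩ := 𝓛.hcap a D₀
    obtain ⟨W, hW, hWle⟩ := 𝒰.directed _ (hmem b) _ (hmem b')
    obtain ⟨c, hc⟩ := hcof W hW
    have hcb : Uι c ≤ Uι b := hc.trans (hWle.trans inf_le_left)
    have hcb' : Uι c ≤ Uι b' := hc.trans (hWle.trans inf_le_right)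
    refine ⟨c, hcb.trans hb, m * m', Nat.Coprime.mul_left hm hm', fun D hD => ?_⟩
    rcases Finset.mem_insert.1 hD with rfl | hD
    · refine ⟨m • (layerIncl M hcb').hom β', ?_⟩
      rw [← 𝓛.ext_comp hb' hcb', mul_smul, map_nsmul, map_nsmul, hβ', 𝓛.ext_dv_apply, map_nsmul]
    · obtain ⟨β, hβ⟩ := hs D hD
      refine ⟨m' • (layerIncl M hcb).hom β, ?_⟩
      rw [← 𝓛.ext_comp hb hcb, mul_comm, mul_smul, map_nsmul, map_nsmul, hβ, 𝓛.ext_dv_apply,
        map_nsmul]

variable [IsDiscrete 𝒰 E] [IsDiscrete 𝒰 M] (hi : Function.Injective i.hom)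

include 𝓛 hmem hcof hi in
/-- **(B2′), level form**: the kernel of `H²(G,E) → H²(G,M)` on level cohomology is torsion prime
to `p`. -/
theorem isPTrivElt_of_Hmap_eq_zero (e : levelCohomology 𝒰 E 2)
    (he : (Hmap 𝒰 i 2).hom e = 0) : IsPTrivElt p e := by
  refine isPTrivElt_of_layers 𝒰 p Uι hmem hcof i (fun a x hx => ?_) e he
  obtain ⟨D, hD, hx'⟩ := exists_ideal_δδ_eq (layerMap i (U := Uι a)) (𝓛.dv a)
    (layerMap_injective hi a) (𝓛.hker a) (𝓛.hH1 a) x hx
  obtain ⟨b, h, m, hm, hβ⟩ := 𝓛.hcap a D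
  refine ⟨b, h, m, hm, ?_⟩
  have key := nsmul_map_δδ_ideal_eq_zero (quotMap h) (layerMap i (U := Uι a)) (𝓛.dv a)
    (layerMap_injective hi a) (𝓛.hker a) (layerMap i (U := Uι b)) (𝓛.dv b)
    (layerMap_injective hi b) (𝓛.hker b) (layerIncl E h) (layerIncl M h) (𝓛.ext h) rfl
    (𝓛.ext_dv h) D hD m hβ
  rw [hx'] at key
  exact key

include 𝓛 hmem hcof hi in
/-- **Pull-back to the units, level form**: a class of `H²(G,M)` having a layer representative
with zero image in `H²` of the ideals is, up to an integer prime to `p`, in the image of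
`H²(G,E)`. -/
theorem exists_Hmap_eq_nsmul (a : ι) (y : groupCohomology (M.quotientToInvariants (Uι a)) 2)
    (hy : (groupCohomology.map (MonoidHom.id (G ⧸ Uι a)) (𝓛.dv a) 2).hom y = 0) :
    ∃ m : ℕ, m.Coprime p ∧ ∃ e : levelCohomology 𝒰 E 2,
      (Hmap 𝒰 i 2).hom e = m • (levelInf 𝒰 M (hmem a) 2).hom y := by
  classical
  have : (Uι a).FiniteIndex := 𝒰.finiteIndex _ (hmem a)
  have : Finite (G ⧸ Uι a) := Subgroup.finite_quotient_of_finiteIndex
  let _ : Fintype (G ⧸ Uι a) := Fintype.ofFinite _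
  obtain ⟨c, hc⟩ := exists_cocycle_δ_eq (layerMap i (U := Uι a)) (𝓛.dv a) (𝓛.hker a) y hy
  choose D hD using fun g : G ⧸ Uι a => cokerπ_surjective (𝓛.dv a) (c g)
  obtain ⟨b, h, m, hm, hs⟩ := 𝓛.exists_cap_finset 𝒰 hmem hcof a (Finset.univ.image D)
  obtain ⟨e, he⟩ := exists_map_eq_nsmul_of_capitulates (quotMap h) (layerMap i (U := Uι a))
    (𝓛.dv a) (𝓛.hker a) (layerMap i (U := Uι b)) (𝓛.dv b)
    (layerMap_injective hi b) (𝓛.hker b) (layerIncl E h) (layerIncl M h) (𝓛.ext h) rfl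
    (𝓛.ext_dv h) y c hc m
    (fun g => ⟨D g, hD g, hs (D g) (Finset.mem_image_of_mem D (Finset.mem_univ g))⟩)
  refine ⟨m, hm, (levelInf 𝒰 E (hmem b) 2).hom e, ?_⟩
  have h1 := congrArg (fun t => t.hom e) (layerMap_comp_levelInf 𝒰 i (hmem b) 2)
  refine h1.symm.trans ?_
  show (levelInf 𝒰 M (hmem b) 2).hom
    ((groupCohomology.map (MonoidHom.id (G ⧸ Uι b)) (layerMap i (U := Uι b)) 2).hom e) = _
  rw [he, map_nsmul]
  exact congrArg (m • ·) (infLayer_levelInf_apply 𝒰 M h (hmem a) (hmem b) 2 y)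

end IdealLayers

section H1P

variable {k G : Type u} [CommRing k] [Group G] {p : ℕ}
  {ι : Type w} {Uι : ι → Subgroup G} [∀ a, (Uι a).Normal]
  (𝒰 : LevelStructure G) {X : ShortComplex (Rep.{u} k G)}
  [IsDiscrete 𝒰 X.X₁] [IsDiscrete 𝒰 X.X₂] [IsDiscrete 𝒰 X.X₃]
  (𝓛 : IdealLayers p Uι X.f) (hmem : ∀ a, Uι a ∈ 𝒰.sets)
  (hcof : ∀ U ∈ 𝒰.sets, ∃ a, Uι a ≤ U) (hX : X.ShortExact)

include 𝓛 hmem hcof hX

/-- **`h1P`**: if `H¹(G, M) = 0` (Hilbert 90), then `H¹(G, M/E)` is torsion prime to `p`. -/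
theorem pTriv_H1 (hH90 : IsZero (levelCohomology 𝒰 X.X₂ 1)) :
    Fermat.Agent.S55.PPart.PTriv p (levelCohomology 𝒰 X.X₃ 1) := by
  intro z
  have hi : Function.Injective X.f.hom := (Rep.mono_iff_injective _).1 hX.mono_f
  obtain ⟨m, hm, hme⟩ := 𝓛.isPTrivElt_of_Hmap_eq_zero 𝒰 hmem hcof hi
    ((levelδ 𝒰 hX 1 2 rfl).hom z) (Hmap_f_levelδ 𝒰 hX 1 2 rfl z)
  refine ⟨m, hm, ?_⟩
  rw [← map_nsmul] at hme
  obtain ⟨y, hy⟩ := (levelδ_eq_zero_iff 𝒰 hX 1 2 rfl _).1 hme
  rw [← hy, (ModuleCat.isZero_iff_subsingleton.1 hH90).elim y 0, map_zero]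

/-- **(β), ideal-theoretic half**: a `p`-primary class of `H²(G,M)` having a layer representative
with zero image in `H²` of the ideals dies in `H²(G, M/E)`. -/
theorem Hmap_g_eq_zero_of_layer (hp : p.Prime) (a : ι)
    (y : groupCohomology (X.X₂.quotientToInvariants (Uι a)) 2)
    (hy : (groupCohomology.map (MonoidHom.id (G ⧸ Uι a)) (𝓛.dv a) 2).hom y = 0)
    (hpy : IsPPrim p ((levelInf 𝒰 X.X₂ (hmem a) 2).hom y)) :
    (Hmap 𝒰 X.g 2).hom ((levelInf 𝒰 X.X₂ (hmem a) 2).hom y) = 0 := by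
  have hi : Function.Injective X.f.hom := (Rep.mono_iff_injective _).1 hX.mono_f
  obtain ⟨m, hm, e, he⟩ := 𝓛.exists_Hmap_eq_nsmul 𝒰 hmem hcof hi a y hy
  apply eq_zero_of_isPPrim_of_isPTrivElt hp (hpy.map (Hmap 𝒰 X.g 2).hom.toAddMonoidHom)
  refine ⟨m, hm, ?_⟩
  have := Hmap_g_Hmap_f 𝒰 (X := X) 2 e
  rw [he, map_nsmul] at this
  exact this

end H1P

end Layers

end Fermat.Agent.S55.CF.IdealLevel
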