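/-
S55 / ALG10 (part 4): level cohomology is torsion in positive degrees.

For a level cocycle `f` of degree `n + 1` that is right invariant under `W` (normal of finite
index), summing over the last variable gives a level cochain `h` of degree `n` with
`d h = ± [G : W] • f`.  Hence `[G : W] • [f] = 0`.
-/
import Fermat.Agent.S55.LevelElem

set_option autoImplicit false

open CategoryTheory

namespace Fermat.Agent.S55.CF

open Fermat.Agent.S55.Level

universe u

section FinLemmas

variable {G : Type*}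

lemma snoc_succ_eq {n : ℕ} (g : Fin (n + 1) → G) (x : G) :
    (fun i : Fin (n + 1) => (Fin.snoc g x : Fin (n + 2) → G) i.succ) =
      Fin.snoc (fun i : Fin n => g i.succ) x := by
  funext i
  refine Fin.lastCases ?_ (fun i => ?_) i
  · rw [Fin.succ_last, Fin.snoc_last, Fin.snoc_last]
  · rw [Fin.succ_castSucc, Fin.snoc_castSucc, Fin.snoc_castSucc]

variable [Group G]

lemma contractNth_last_snoc {n : ℕ} (g : Fin (n + 1) → G) (x : G) :
    Fin.contractNth (Fin.last (n + 1)) (· * ·) (Fin.snoc g x : Fin (n + 2) → G) = g := by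
  funext i
  have hi : (i : ℕ) < ((Fin.last (n + 1) : Fin (n + 2)) : ℕ) := by
    rw [Fin.val_last]; exact i.2
  simp only [Fin.contractNth, hi, if_true]
  exact Fin.snoc_castSucc (α := fun _ => G) x g i

lemma contractNth_castSucc_snoc {n : ℕ} (j : Fin (n + 1)) (g : Fin (n + 1) → G) (x : G) :
    Fin.contractNth j.castSucc (· * ·) (Fin.snoc g x : Fin (n + 2) → G) =
      Fin.snoc (Fin.contractNth j (· * ·) g)
        (if j = Fin.last n then g (Fin.last n) * x else x) := by
  funext i
  refine Fin.lastCases ?_ (fun i => ?_) i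
  · rw [Fin.snoc_last]
    simp only [Fin.contractNth, Fin.val_last, Fin.val_castSucc]
    have hj : ¬ n < (j : ℕ) := by have := j.2; omega
    rw [if_neg hj]
    by_cases hjl : j = Fin.last n
    · have : n = (j : ℕ) := by rw [hjl, Fin.val_last]
      rw [if_pos this, if_pos hjl, Fin.snoc_castSucc, Fin.succ_last, Fin.snoc_last]
    · have : ¬ n = (j : ℕ) := fun h => hjl (Fin.ext (by rw [Fin.val_last]; exact h.symm))
      rw [if_neg this, if_neg hjl, Fin.succ_last, Fin.snoc_last]
  · rw [Fin.snoc_castSucc]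
    simp only [Fin.contractNth, Fin.val_castSucc, Fin.succ_castSucc, Fin.snoc_castSucc]

end FinLemmas

section SumLast

variable {k G : Type u} [CommRing k] [Group G] (A : Rep.{u} k G) (W : Subgroup G)
  [Fintype (G ⧸ W)]

/-- Sum of a cochain over coset representatives in the last variable. -/
noncomputable def sumLast {n : ℕ} (f : (Fin (n + 1) → G) → A) : (Fin n → G) → A :=
  fun g => ∑ c : G ⧸ W, f (Fin.snoc g c.out)

variable {A W}

omit [Fintype (G ⧸ W)] in
lemma snoc_mul_right_inv {n : ℕ} {f : (Fin (n + 1) → G) → A} (hf : IsRightInv W f)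
    (u : Fin n → G) (x s : G) (hs : s ∈ W) :
    f (Fin.snoc u (x * s)) = f (Fin.snoc u x) := by
  have h1 : (Fin.snoc u (x * s) : Fin (n + 1) → G) =
      (Fin.snoc u x : Fin (n + 1) → G) * (Fin.snoc (fun _ => 1) s : Fin (n + 1) → G) := by
    funext i
    refine Fin.lastCases ?_ (fun i => ?_) i
    · simp only [Pi.mul_apply, Fin.snoc_last]
    · simp only [Pi.mul_apply, Fin.snoc_castSucc, mul_one]
  rw [h1]
  refine hf _ _ fun i => ?_
  refine Fin.lastCases ?_ (fun i => ?_) i
  · rw [Fin.snoc_last]; exact hs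
  · rw [Fin.snoc_castSucc]; exact W.one_mem

/-- Reindexing the sum over cosets by left translation. -/
lemma sum_snoc_mul_left {n : ℕ} {f : (Fin (n + 1) → G) → A} (hf : IsRightInv W f)
    (u : Fin n → G) (a : G) :
    ∑ c : G ⧸ W, f (Fin.snoc u (a * c.out)) = sumLast A W f u := by
  have h1 : ∀ c : G ⧸ W, f (Fin.snoc u (a * c.out)) = f (Fin.snoc u (a • c).out) := by
    intro c
    have h2 : (a • c) = (QuotientGroup.mk (a * c.out) : G ⧸ W) := by
      conv_lhs => rw [← QuotientGroup.out_eq' c]
      rfl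
    obtain ⟨s, hs⟩ := QuotientGroup.mk_out_eq_mul W (a * c.out)
    rw [h2, hs]
    exact (snoc_mul_right_inv hf u _ _ s.2).symm
  rw [Finset.sum_congr rfl fun c _ => h1 c]
  exact Fintype.sum_equiv (MulAction.toPerm a) _ _ fun c => rfl

/-- The key identity: summing the coboundary over the last variable. -/
theorem sumLast_d {n : ℕ} {f : (Fin (n + 1) → G) → A} (hf : IsRightInv W f)
    (g : Fin (n + 1) → G) :
    sumLast A W ((inhomogeneousCochains.d A (n + 1)).hom f) g =
      (inhomogeneousCochains.d A n).hom (sumLast A W f) g +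
        (-1 : k) ^ (n + 2) • (Fintype.card (G ⧸ W) • f g) := by
  simp only [sumLast, inhomogeneousCochains.d_hom_apply]
  rw [Finset.sum_add_distrib]
  have h1 : ∀ c : G ⧸ W, A.ρ ((Fin.snoc g c.out : Fin (n + 2) → G) 0)
      (f fun i => (Fin.snoc g c.out : Fin (n + 2) → G) i.succ) =
      A.ρ (g 0) (f (Fin.snoc (fun i : Fin n => g i.succ) c.out)) := by
    intro c
    rw [snoc_succ_eq]
    rfl
  rw [Finset.sum_congr rfl fun c _ => h1 c, ← map_sum, add_assoc (A.ρ (g 0) _)]
  congr 1
  have h2 : ∀ c : G ⧸ W, ∑ j : Fin (n + 1 + 1), (-1 : k) ^ ((j : ℕ) + 1) •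
      f (Fin.contractNth j (· * ·) (Fin.snoc g c.out : Fin (n + 1 + 1) → G)) =
      ∑ j : Fin (n + 1), (-1 : k) ^ ((j : ℕ) + 1) •
        f (Fin.snoc (Fin.contractNth j (· * ·) g)
          (if j = Fin.last n then g (Fin.last n) * c.out else c.out)) +
      (-1 : k) ^ (n + 2) • f g := by
    intro c
    rw [Fin.sum_univ_castSucc]
    congr 1
    · refine Finset.sum_congr rfl fun j _ => ?_
      rw [contractNth_castSucc_snoc, Fin.val_castSucc]
    · rw [contractNth_last_snoc, Fin.val_last]
  refine (Finset.sum_congr rfl fun c _ => h2 c).trans ?_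
  rw [Finset.sum_add_distrib, Finset.sum_comm]
  congr 1
  · refine Finset.sum_congr rfl fun j _ => ?_
    rw [← Finset.smul_sum]
    congr 1
    by_cases hj : j = Fin.last n
    · simp only [hj, if_true]
      exact sum_snoc_mul_left hf _ _
    · simp only [hj, if_false]
  · rw [Finset.sum_const, Finset.card_univ, smul_comm]

end SumLast

section Torsion

variable {k G : Type u} [CommRing k] [Group G]

lemma isRightInv_sumLast {A : Rep.{u} k G} {W : Subgroup G} [Fintype (G ⧸ W)] {n : ℕ}
    {f : (Fin (n + 1) → G) → A} (hf : IsRightInv W f) : IsRightInv W (sumLast A W f) := by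
  intro g s hs
  simp only [sumLast]
  refine Finset.sum_congr rfl fun c _ => ?_
  have h1 : (Fin.snoc (g * s) c.out : Fin (n + 1) → G) =
      (Fin.snoc g c.out : Fin (n + 1) → G) * (Fin.snoc s 1 : Fin (n + 1) → G) := by
    funext i
    refine Fin.lastCases ?_ (fun i => ?_) i
    · simp only [Pi.mul_apply, Fin.snoc_last, mul_one]
    · simp only [Pi.mul_apply, Fin.snoc_castSucc]
  rw [h1]
  refine hf _ _ fun i => ?_
  refine Fin.lastCases ?_ (fun i => ?_) i
  · rw [Fin.snoc_last]; exact W.one_mem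
  · rw [Fin.snoc_castSucc]; exact hs i

variable (𝒰 : LevelStructure G) (A : Rep.{u} k G) [IsDiscrete 𝒰 A]

/-- A level cocycle of positive degree which is right invariant under `W` is killed by the index
of `W` in cohomology. -/
theorem index_nsmul_levelπ_eq_zero (n : ℕ) (z : levelCocycles 𝒰 A (n + 1)) (W : Subgroup G)
    (hW : W ∈ 𝒰.sets) (hz : IsRightInv W z.1) :
    W.index • (levelπ 𝒰 A (n + 1)).hom z = 0 := by
  classical
  have := 𝒰.finiteIndex W hW
  let _ : Fintype (G ⧸ W) := Fintype.ofFinite _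
  rw [← map_nsmul, levelπ_eq_zero_iff]
  have hcard : Fintype.card (G ⧸ W) = W.index := by
    rw [Subgroup.index, Nat.card_eq_fintype_card]
  have hlevel : sumLast A W z.1 ∈ levelCochains 𝒰 A n := ⟨W, hW, isRightInv_sumLast hz⟩
  have hkey : ∀ g, (inhomogeneousCochains.d A n).hom (sumLast A W z.1) g +
      (-1 : k) ^ (n + 2) • (W.index • z.1 g) = 0 := by
    intro g
    rw [← hcard, ← sumLast_d hz g]
    have h0 : (inhomogeneousCochains.d A (n + 1)).hom z.1 = 0 := z.2.2
    simp only [sumLast, h0]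
    exact Finset.sum_eq_zero fun c _ => rfl
  have hsq : ((-1 : k) ^ (n + 2)) * ((-1 : k) ^ (n + 2)) = 1 := by
    rw [← mul_pow]; simp
  have hval : (W.index • z).1 = -((-1 : k) ^ (n + 2) •
      (inhomogeneousCochains.d A n).hom (sumLast A W z.1)) := by
    funext g
    have h1 := hkey g
    have h2 : (-1 : k) ^ (n + 2) • ((inhomogeneousCochains.d A n).hom (sumLast A W z.1) g +
        (-1 : k) ^ (n + 2) • (W.index • z.1 g)) = 0 := by rw [h1, smul_zero]
    rw [smul_add, smul_smul, hsq, one_smul] at h2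
    show W.index • z.1 g = -((-1 : k) ^ (n + 2) • _)
    exact eq_neg_of_add_eq_zero_right h2
  rw [hval]
  refine Submodule.neg_mem _ (Submodule.smul_mem _ _ ?_)
  exact ⟨_, hlevel, rfl⟩

/-- **Level cohomology is torsion in positive degrees.** -/
theorem exists_nsmul_eq_zero (n : ℕ) (x : levelCohomology 𝒰 A (n + 1)) :
    ∃ N : ℕ, 0 < N ∧ N • x = 0 := by
  obtain ⟨z, rfl⟩ := levelπ_surjective 𝒰 A (n + 1) x
  obtain ⟨W, hW, hz⟩ := z.2.1
  have := 𝒰.finiteIndex W hW
  exact ⟨W.index, Nat.pos_of_ne_zero Subgroup.FiniteIndex.index_ne_zero,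
    index_nsmul_levelπ_eq_zero 𝒰 A n z W hW hz⟩

end Torsion

end Fermat.Agent.S55.CF
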