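/-
S55 / ALG10 (part 6): the `p`-primary chases of the base case (blueprint v3, PART B), in abstract
form.

Data: a short exact sequence `0 → E → M → P → 0` of discrete representations (`E` = `S`-units of
`ℚ_S`, `M = ℚ_S^×`, `P = M/E`), a family of "local Brauer groups" `B v` (all finite places `v`,
`S` = the places above the given finite set of primes) with localisation maps
`res v : H²(G, M) → B v` and invariant maps `inv v : B v → Q` (`Q = ℚ/ℤ`), and "valuation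
components" `ell v : H²(G, P) → B v` (`v ∉ S`).

Hypotheses (`BrauerHyp`): reciprocity (R) and Hasse principle (HS) for `p`-PRIMARY classes of
`H²(G, M)` only, existence of a `p`-primary class with prescribed `p`-primary local components
(EX), `H¹(G, P)` torsion prime to `p` (capitulation), and detection of `p`-primary classes of
`H²(G, P)` by the `ell v`.

Conclusions: `ker (H²(E) → H²(M))` is torsion prime to `p` (B2'); the localisation
`H²(G,E)[p] → ∏_{w ∈ S} B w [p]` is injective (B2) with image the kernel of the sum of the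
invariants (B5/K2); for a Kummer sequence `0 → μ → E → E → 0`: ARITH-L (b), (c) of blueprint v4.

With the additional hypotheses `BrauerHypFull` (and `H³(G, M)[p] = 0` where stated): `H²(G, E)` is
`p`-divisible and `H³(G, E)[p] = 0` (B4), hence `H³(G, μ) = 0` (K3) — not used by blueprint v4.
-/
import Fermat.Agent.S55.CF.Kummer
import Fermat.Agent.S55.CF.Torsion
import Fermat.Agent.S55.CF.PElem

set_option autoImplicit false
set_option linter.unusedSectionVars false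

open CategoryTheory

namespace Fermat.Agent.S55.CF

open Fermat.Agent.S55.Level Fermat.Agent.S55.PPart

universe u

variable {k G : Type u} [CommRing k] [Group G] (𝒰 : LevelStructure G)

section Brauer

variable (p : ℕ) (X : ShortComplex (Rep.{u} k G)) [IsDiscrete 𝒰 X.X₁] [IsDiscrete 𝒰 X.X₂]
  [IsDiscrete 𝒰 X.X₃] {V : Type*} (S : Finset V) {B : V → Type*} [∀ v, AddCommGroup (B v)]
  {Q : Type*} [AddCommGroup Q] (res : ∀ v, levelCohomology 𝒰 X.X₂ 2 →+ B v)
  (inv : ∀ v, B v →+ Q) (ell : ∀ v, levelCohomology 𝒰 X.X₃ 2 →+ B v)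

/-- The arithmetic input of the base case, in abstract form: reciprocity (R), Hasse principle
(HS), existence (EX), `H¹(G, P)` torsion prime to `p`, valuation components. This is all that
(B2), (B2') and (B5)/(K2) need. -/
structure BrauerHyp : Prop where
  recip : ∀ y, IsPPrim p y →
    ∃ F : Finset V, (∀ v, v ∉ F → res v y = 0) ∧ ∑ v ∈ F, inv v (res v y) = 0
  hasse : ∀ y, IsPPrim p y → (∀ v, res v y = 0) → y = 0
  exist : ∀ (F : Finset V) (x : ∀ v, B v), (∀ v, v ∉ F → x v = 0) → (∀ v, IsPPrim p (x v)) →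
    ∑ v ∈ F, inv v (x v) = 0 → ∃ y, IsPPrim p y ∧ ∀ v, res v y = x v
  h1P : PTriv p (levelCohomology 𝒰 X.X₃ 1)
  ell_res : ∀ v, v ∉ S → ∀ y, ell v ((Hmap 𝒰 X.g 2).hom y) = res v y
  ell_detect : ∀ z, IsPPrim p z → (∀ v, v ∉ S → ell v z = 0) → z = 0

/-- The additional input needed for the divisibility statements (B4): `S` is nonempty, the
invariant maps are injective, onto the `p`-primary part of `Q` at the places of `S`, the
`p`-primary part of `Q` is `p`-divisible, and the valuation components are finitely supported. -/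
structure BrauerHypFull : Prop extends BrauerHyp 𝒰 p X S res inv ell where
  S_nonempty : S.Nonempty
  Q_div : ∀ t : Q, IsPPrim p t → ∃ t' : Q, IsPPrim p t' ∧ p • t' = t
  inv_injective : ∀ v, Function.Injective (inv v)
  inv_surj : ∀ v ∈ S, ∀ t : Q, IsPPrim p t → ∃ b : B v, inv v b = t
  ell_fin : ∀ z, ∃ F : Finset V, ∀ v, v ∉ F → ell v z = 0

variable {𝒰 p X S res inv ell}

namespace BrauerHyp

variable (H : BrauerHyp 𝒰 p X S res inv ell)

include H

/-- Reciprocity over any finite set containing the support. -/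
lemma recip' (y : levelCohomology 𝒰 X.X₂ 2) (hy : IsPPrim p y) (F' : Finset V)
    (hF' : ∀ v, v ∉ F' → res v y = 0) : ∑ v ∈ F', inv v (res v y) = 0 := by
  classical
  obtain ⟨F, hF, hsum⟩ := H.recip y hy
  have h1 : ∑ v ∈ F', inv v (res v y) = ∑ v ∈ F ∪ F', inv v (res v y) :=
    Finset.sum_subset Finset.subset_union_right fun v _ hv => by rw [hF' v hv, map_zero]
  have h2 : ∑ v ∈ F, inv v (res v y) = ∑ v ∈ F ∪ F', inv v (res v y) :=
    Finset.sum_subset Finset.subset_union_left fun v _ hv => by rw [hF v hv, map_zero]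
  rw [h1, ← h2, hsum]

variable (hX : X.ShortExact)

include hX

/-- **(B2')**: the kernel of `H²(G, E) → H²(G, M)` is torsion prime to `p`. -/
theorem isPTrivElt_of_Hmap_f_eq_zero (e : levelCohomology 𝒰 X.X₁ 2)
    (he : (Hmap 𝒰 X.f 2).hom e = 0) : IsPTrivElt p e := by
  obtain ⟨z, rfl⟩ := (Hmap_f_eq_zero_iff 𝒰 hX 1 2 rfl e).1 he
  exact IsPTrivElt.map (H.h1P z) ((levelδ 𝒰 hX 1 2 rfl).hom.toAddMonoidHom)

omit hX in
/-- Classes coming from `E` have trivial local components outside `S`. -/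
lemma res_Hmap_f_eq_zero (e : levelCohomology 𝒰 X.X₁ 2) (v : V) (hv : v ∉ S) :
    res v ((Hmap 𝒰 X.f 2).hom e) = 0 := by
  rw [← H.ell_res v hv, Hmap_g_Hmap_f, map_zero]

/-- **(B2)**: a `p`-torsion class of `H²(G, E)` with trivial local components at the places of
`S` vanishes. -/
theorem eq_zero_of_res_eq_zero [Fact p.Prime] (e : levelCohomology 𝒰 X.X₁ 2) (he : p • e = 0)
    (hS : ∀ v, v ∈ S → res v ((Hmap 𝒰 X.f 2).hom e) = 0) : e = 0 := by
  have hp : p.Prime := Fact.out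
  have h1 : (Hmap 𝒰 X.f 2).hom e = 0 := by
    apply H.hasse _
      ((IsPPrim.of_nsmul_eq_zero he).map (Hmap 𝒰 X.f 2).hom.toAddMonoidHom)
    intro v
    by_cases hv : v ∈ S
    · exact hS v hv
    · exact H.res_Hmap_f_eq_zero e v hv
  exact eq_zero_of_nsmul_eq_zero_of_isPTrivElt hp he (H.isPTrivElt_of_Hmap_f_eq_zero hX e h1)

omit hX in
/-- Reciprocity for classes coming from `E`: the sum of the invariants over `S` vanishes. -/
theorem sum_inv_res_Hmap_f (e : levelCohomology 𝒰 X.X₁ 2) (he : IsPPrim p e) :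
    ∑ v ∈ S, inv v (res v ((Hmap 𝒰 X.f 2).hom e)) = 0 :=
  H.recip' _ (he.map (Hmap 𝒰 X.f 2).hom.toAddMonoidHom) S
    fun v hv => H.res_Hmap_f_eq_zero e v hv

/-- **(B5)**: every family of `p`-torsion local classes at the places of `S` whose invariants sum
to zero comes from a `p`-torsion class of `H²(G, E)`. -/
theorem exists_of_sum_inv_eq_zero [Fact p.Prime] (x : ∀ v, B v) (hx : ∀ v, p • x v = 0)
    (hxS : ∀ v, v ∉ S → x v = 0) (hsum : ∑ v ∈ S, inv v (x v) = 0) :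
    ∃ e : levelCohomology 𝒰 X.X₁ 2, p • e = 0 ∧ ∀ v, res v ((Hmap 𝒰 X.f 2).hom e) = x v := by
  have hp : p.Prime := Fact.out
  obtain ⟨y, hyp, hy⟩ := H.exist S x hxS (fun v => IsPPrim.of_nsmul_eq_zero (hx v)) hsum
  have hpy : p • y = 0 := H.hasse _ (hyp.nsmul p) fun v => by rw [map_nsmul, hy v, hx v]
  have hgy : IsPPrim p ((Hmap 𝒰 X.g 2).hom y) :=
    (IsPPrim.of_nsmul_eq_zero hpy).map (Hmap 𝒰 X.g 2).hom.toAddMonoidHom
  have h1 : (Hmap 𝒰 X.g 2).hom y = 0 :=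
    H.ell_detect _ hgy fun v hv => by rw [H.ell_res v hv, hy v, hxS v hv]
  obtain ⟨e₀, rfl⟩ := (Hmap_g_eq_zero_iff 𝒰 hX 2 y).1 h1
  have h2 : (Hmap 𝒰 X.f 2).hom (p • e₀) = 0 := by rw [map_nsmul, hpy]
  obtain ⟨m, hm, hme⟩ := H.isPTrivElt_of_Hmap_f_eq_zero hX _ h2
  obtain ⟨u, hu⟩ := exists_mul_nsmul_eq_self (X := levelCohomology 𝒰 X.X₂ 2) hp hm
  refine ⟨(u * m) • e₀, ?_, fun v => ?_⟩
  · rw [smul_comm, mul_smul, hme, smul_zero]
  · rw [map_nsmul, hu _ hpy, hy v]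

section KummerPart

variable {μ : Rep.{u} k G} [IsDiscrete 𝒰 μ] {ι : μ ⟶ X.X₁} {w : ι ≫ (p • 𝟙 X.X₁) = 0}
  (hK : (ShortComplex.mk ι (p • 𝟙 X.X₁) w).ShortExact)

include hK

/-- **(K2), image**: a family of `p`-torsion local classes at the places of `S` is the
localisation of a class of `H²(G, μ)` iff its invariants sum to zero. -/
theorem sum_inv_eq_zero_iff_exists_kummer [Fact p.Prime] (x : ∀ v, B v) (hx : ∀ v, p • x v = 0)
    (hxS : ∀ v, v ∉ S → x v = 0) :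
    ∑ v ∈ S, inv v (x v) = 0 ↔ ∃ c : levelCohomology 𝒰 μ 2,
      ∀ v, res v ((Hmap 𝒰 X.f 2).hom ((Hmap 𝒰 ι 2).hom c)) = x v := by
  constructor
  · intro hsum
    obtain ⟨e, he, hex⟩ := H.exists_of_sum_inv_eq_zero hX x hx hxS hsum
    obtain ⟨c, rfl⟩ := (kummer_nsmul_eq_zero_iff 𝒰 hK 2 e).1 he
    exact ⟨c, hex⟩
  · rintro ⟨c, hc⟩
    have hpc : p • (Hmap 𝒰 ι 2).hom c = 0 := by
      rw [← map_nsmul, nsmul_levelCohomology_eq_zero 𝒰 hK 2 c, map_zero]
    have := H.sum_inv_res_Hmap_f ((Hmap 𝒰 ι 2).hom c) (IsPPrim.of_nsmul_eq_zero hpc)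
    simpa only [hc] using this

/-- **(K2), kernel**: a class of `H²(G, μ)` is locally trivial at the places of `S` iff it is a
Kummer boundary of a class of `H¹(G, E)`. -/
theorem res_eq_zero_iff_exists_kummerδ [Fact p.Prime] (c : levelCohomology 𝒰 μ 2) :
    (∀ v, v ∈ S → res v ((Hmap 𝒰 X.f 2).hom ((Hmap 𝒰 ι 2).hom c)) = 0) ↔
      ∃ a : levelCohomology 𝒰 X.X₁ 1, (kummerδ 𝒰 hK 1).hom a = c := by
  constructor
  · intro h
    have hpc : p • (Hmap 𝒰 ι 2).hom c = 0 := by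
      rw [← map_nsmul, nsmul_levelCohomology_eq_zero 𝒰 hK 2 c, map_zero]
    have h0 := H.eq_zero_of_res_eq_zero hX _ hpc h
    exact (Hmap_ι_eq_zero_iff 𝒰 hK 1 c).1 h0
  · rintro ⟨a, rfl⟩ v _
    rw [(Hmap_ι_eq_zero_iff 𝒰 hK 1 _).2 ⟨a, rfl⟩, map_zero, map_zero]

/-! ### The same statements for the localisation maps of `μ` itself

`Bμ v` plays the role of `H²(G_v, μ)`, `locμ v` of the localisation map `H²(G, μ) → H²(G_v, μ)`
and `κ v : H²(G_v, μ) → H²(G_v, N_v)` of the local Kummer map (injective with image the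
`p`-torsion, by local Hilbert 90). -/

variable {Bμ : V → Type*} [∀ v, AddCommGroup (Bμ v)] (locμ : ∀ v, levelCohomology 𝒰 μ 2 →+ Bμ v)
  (κ : ∀ v, Bμ v →+ B v) (hκ_inj : ∀ v, v ∈ S → Function.Injective (κ v))
  (hsq : ∀ v, v ∈ S → ∀ c, κ v (locμ v c) = res v ((Hmap 𝒰 X.f 2).hom ((Hmap 𝒰 ι 2).hom c)))

include hκ_inj hsq

/-- **ARITH-L (b)**: the kernel of the localisation map `H²(G, μ) → ∏_{w ∈ S} H²(G_w, μ)` is the
image of the Kummer boundary `H¹(G, E) → H²(G, μ)` (whose kernel is `p H¹(G, E)`, see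
`kummerδ_eq_zero_iff`). -/
theorem locμ_eq_zero_iff_exists_kummerδ [Fact p.Prime] (c : levelCohomology 𝒰 μ 2) :
    (∀ v, v ∈ S → locμ v c = 0) ↔
      ∃ a : levelCohomology 𝒰 X.X₁ 1, (kummerδ 𝒰 hK 1).hom a = c := by
  rw [← H.res_eq_zero_iff_exists_kummerδ hX hK c]
  refine forall₂_congr fun v hv => ?_
  rw [← hsq v hv c]
  exact ⟨fun h => by rw [h, map_zero], fun h => hκ_inj v hv (by rw [h, map_zero])⟩

/-- **ARITH-L (c)**: a family of local classes `x v ∈ H²(G_v, μ)` (`v ∈ S`) is the localisation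
of a global class iff the invariants of its images in the local Brauer groups sum to zero. -/
theorem exists_locμ_eq_iff [Fact p.Prime] (hBμ : ∀ v (a : Bμ v), p • a = 0) (x : ∀ v, Bμ v) :
    (∃ c : levelCohomology 𝒰 μ 2, ∀ v, v ∈ S → locμ v c = x v) ↔
      ∑ v ∈ S, inv v (κ v (x v)) = 0 := by
  classical
  let x' : ∀ v, B v := fun v => if v ∈ S then κ v (x v) else 0
  have hx' : ∀ v, p • x' v = 0 := by
    intro v
    by_cases hv : v ∈ S
    · simp only [x', if_pos hv]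
      rw [← map_nsmul, hBμ v (x v), map_zero]
    · simp only [x', if_neg hv, smul_zero]
  have hx'S : ∀ v, v ∉ S → x' v = 0 := fun v hv => by simp only [x', if_neg hv]
  have hsum : ∑ v ∈ S, inv v (x' v) = ∑ v ∈ S, inv v (κ v (x v)) :=
    Finset.sum_congr rfl fun v hv => by simp only [x', if_pos hv]
  rw [← hsum, H.sum_inv_eq_zero_iff_exists_kummer hX hK x' hx' hx'S]
  constructor
  · rintro ⟨c, hc⟩
    refine ⟨c, fun v => ?_⟩
    by_cases hv : v ∈ S
    · rw [← hsq v hv c, hc v hv]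
      simp only [x', if_pos hv]
    · rw [H.res_Hmap_f_eq_zero _ v hv, hx'S v hv]
  · rintro ⟨c, hc⟩
    refine ⟨c, fun v hv => hκ_inj v hv ?_⟩
    rw [hsq v hv c, hc v]
    simp only [x', if_pos hv]

end KummerPart

end BrauerHyp

namespace BrauerHypFull

variable (H : BrauerHypFull 𝒰 p X S res inv ell)

include H

variable (hX : X.ShortExact)

include hX

omit hX in
/-- Every `p`-primary class of `H²(G, P)` comes from `H²(G, M)` (existence theorem + detection by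
valuation components + one place of `S` to balance the sum of invariants). -/
theorem exists_Hmap_g_eq [Fact p.Prime] (z : levelCohomology 𝒰 X.X₃ 2) (hz : IsPPrim p z) :
    ∃ y : levelCohomology 𝒰 X.X₂ 2, (Hmap 𝒰 X.g 2).hom y = z := by
  classical
  obtain ⟨w₀, hw₀⟩ := H.S_nonempty
  obtain ⟨F₀, hF₀⟩ := H.ell_fin z
  let F₁ : Finset V := F₀.filter (fun v => v ∉ S)
  let t : Q := -∑ v ∈ F₁, inv v (ell v z)
  have ht : IsPPrim p t :=
    (IsPPrim.sum _ _ fun v _ => ((hz.map (ell v)).map (inv v))).neg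
  obtain ⟨b₀, hb₀⟩ := H.inv_surj w₀ hw₀ t ht
  let x₀ : ∀ v, B v := fun v => if v ∈ S then 0 else ell v z
  let x : ∀ v, B v := Function.update x₀ w₀ b₀
  have hxw : x w₀ = b₀ := Function.update_self w₀ b₀ x₀
  have hxv : ∀ v, v ≠ w₀ → x v = x₀ v := fun v hv => Function.update_of_ne hv b₀ x₀
  have hxS : ∀ v, v ∉ S → x v = ell v z := by
    intro v hv
    have hne : v ≠ w₀ := fun h => hv (h ▸ hw₀)
    rw [hxv v hne]
    simp only [x₀, if_neg hv]
  have hw₀F : w₀ ∉ F₁ := by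
    simp only [F₁, Finset.mem_filter, not_and, not_not]
    exact fun _ => hw₀
  have hsupp : ∀ v, v ∉ insert w₀ F₁ → x v = 0 := by
    intro v hv
    rw [Finset.mem_insert, not_or] at hv
    rw [hxv v hv.1]
    by_cases hvS : v ∈ S
    · simp only [x₀, if_pos hvS]
    · simp only [x₀, if_neg hvS]
      apply hF₀
      intro hvF
      exact hv.2 (Finset.mem_filter.2 ⟨hvF, hvS⟩)
  have hprim : ∀ v, IsPPrim p (x v) := by
    intro v
    by_cases hv : v = w₀
    · subst hv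
      rw [hxw]
      exact IsPPrim.of_map (inv v) (H.inv_injective v) (by rw [hb₀]; exact ht)
    · rw [hxv v hv]
      by_cases hvS : v ∈ S
      · simp only [x₀, if_pos hvS]; exact isPPrim_zero
      · simp only [x₀, if_neg hvS]; exact hz.map (ell v)
  have hsum : ∑ v ∈ insert w₀ F₁, inv v (x v) = 0 := by
    rw [Finset.sum_insert hw₀F, hxw, hb₀]
    have : ∑ v ∈ F₁, inv v (x v) = ∑ v ∈ F₁, inv v (ell v z) := by
      refine Finset.sum_congr rfl fun v hv => ?_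
      rw [hxS v (Finset.mem_filter.1 hv).2]
    rw [this]
    exact neg_add_cancel _
  obtain ⟨y, hyp, hy⟩ := H.exist (insert w₀ F₁) x hsupp hprim hsum
  refine ⟨y, ?_⟩
  have hgy : IsPPrim p ((Hmap 𝒰 X.g 2).hom y) := hyp.map (Hmap 𝒰 X.g 2).hom.toAddMonoidHom
  have h0 : z - (Hmap 𝒰 X.g 2).hom y = 0 := by
    apply H.ell_detect _ (hz.sub hgy)
    intro v hv
    rw [map_sub, H.ell_res v hv y, hy v, hxS v hv, sub_self]
  exact (sub_eq_zero.1 h0).symm

/-- **(B4), second half**: `H³(G, E)` has no `p`-torsion. -/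
theorem eq_zero_of_nsmul_eq_zero_H3 [Fact p.Prime]
    (h3 : ∀ x : levelCohomology 𝒰 X.X₂ 3, p • x = 0 → x = 0) (x : levelCohomology 𝒰 X.X₁ 3)
    (hx : p • x = 0) : x = 0 := by
  have hp : p.Prime := Fact.out
  have h1 : (Hmap 𝒰 X.f 3).hom x = 0 := h3 _ (by rw [← map_nsmul, hx, map_zero])
  obtain ⟨z, rfl⟩ := (Hmap_f_eq_zero_iff 𝒰 hX 2 3 rfl x).1 h1
  obtain ⟨N, hN, hNz⟩ := exists_nsmul_eq_zero 𝒰 X.X₃ 1 z
  obtain ⟨z₁, z₂, hz, hz₁, hz₂⟩ := exists_split hp hN hNz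
  obtain ⟨y, hy⟩ := H.exists_Hmap_g_eq z₂ hz₂
  have h2 : (levelδ 𝒰 hX 2 3 rfl).hom z₂ = 0 := by
    rw [← hy]
    exact levelδ_Hmap_g 𝒰 hX 2 3 rfl y
  apply eq_zero_of_nsmul_eq_zero_of_isPTrivElt hp hx
  rw [hz, map_add, h2, add_zero]
  exact IsPTrivElt.map hz₁ (levelδ 𝒰 hX 2 3 rfl).hom.toAddMonoidHom

omit hX in
/-- A `p`-primary class of `H²(G, M)` with trivial components outside `S` is `p` times another
such class. -/
theorem exists_nsmul_eq_of_res_eq_zero [Fact p.Prime] (y : levelCohomology 𝒰 X.X₂ 2)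
    (hy : IsPPrim p y) (hyS : ∀ v, v ∉ S → res v y = 0) :
    ∃ y' : levelCohomology 𝒰 X.X₂ 2, p • y' = y ∧ IsPPrim p y' ∧ ∀ v, v ∉ S → res v y' = 0 := by
  classical
  obtain ⟨w₀, hw₀⟩ := H.S_nonempty
  have hc : ∀ v, ∃ t' : Q, IsPPrim p t' ∧ p • t' = inv v (res v y) :=
    fun v => H.Q_div _ ((hy.map (res v)).map (inv v))
  choose t' ht'p ht' using hc
  have hb : ∀ v, ∃ b : B v, v ∈ S → inv v b = t' v := by
    intro v
    by_cases hv : v ∈ S
    · obtain ⟨b, hb⟩ := H.inv_surj v hv (t' v) (ht'p v)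
      exact ⟨b, fun _ => hb⟩
    · exact ⟨0, fun h => absurd h hv⟩
  choose b hb using hb
  let t₀ : Q := -∑ v ∈ S.erase w₀, t' v
  have ht₀ : IsPPrim p t₀ := (IsPPrim.sum _ _ fun v _ => ht'p v).neg
  obtain ⟨b₀, hb₀⟩ := H.inv_surj w₀ hw₀ t₀ ht₀
  let x₀ : ∀ v, B v := fun v => if v ∈ S then b v else 0
  let x : ∀ v, B v := Function.update x₀ w₀ b₀
  have hxw : x w₀ = b₀ := Function.update_self w₀ b₀ x₀
  have hxv : ∀ v, v ≠ w₀ → x v = x₀ v := fun v hv => Function.update_of_ne hv b₀ x₀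
  have hxS : ∀ v, v ∈ S → v ≠ w₀ → x v = b v := by
    intro v hv hne
    rw [hxv v hne]
    simp only [x₀, if_pos hv]
  have hsupp : ∀ v, v ∉ S → x v = 0 := by
    intro v hv
    have hne : v ≠ w₀ := fun h => hv (h ▸ hw₀)
    rw [hxv v hne]
    simp only [x₀, if_neg hv]
  have hinv : ∀ v, v ∈ S → v ≠ w₀ → inv v (x v) = t' v := by
    intro v hv hne
    rw [hxS v hv hne, hb v hv]
  have hprim : ∀ v, IsPPrim p (x v) := by
    intro v
    by_cases hv : v = w₀
    · subst hv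
      rw [hxw]
      exact IsPPrim.of_map (inv v) (H.inv_injective v) (by rw [hb₀]; exact ht₀)
    · by_cases hvS : v ∈ S
      · exact IsPPrim.of_map (inv v) (H.inv_injective v) (by rw [hinv v hvS hv]; exact ht'p v)
      · rw [hsupp v hvS]; exact isPPrim_zero
  have hsum : ∑ v ∈ S, inv v (x v) = 0 := by
    rw [← Finset.add_sum_erase S _ hw₀, hxw, hb₀]
    have : ∑ v ∈ S.erase w₀, inv v (x v) = ∑ v ∈ S.erase w₀, t' v := by
      refine Finset.sum_congr rfl fun v hv => ?_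
      exact hinv v (Finset.mem_of_mem_erase hv) (Finset.ne_of_mem_erase hv)
    rw [this]
    exact neg_add_cancel _
  obtain ⟨y', hy'p, hy'⟩ := H.exist S x hsupp hprim hsum
  have hyS' : ∑ v ∈ S, inv v (res v y) = 0 := H.recip' y hy S hyS
  refine ⟨y', ?_, hy'p, fun v hv => by rw [hy' v, hsupp v hv]⟩
  have h0 : p • y' - y = 0 := by
    apply H.hasse _ ((hy'p.nsmul p).sub hy)
    intro v
    rw [map_sub, map_nsmul, hy' v, sub_eq_zero]
    by_cases hvS : v ∈ S
    · apply H.inv_injective v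
      rw [map_nsmul]
      by_cases hv : v = w₀
      · subst hv
        rw [hxw, hb₀]
        rw [← Finset.add_sum_erase S _ hw₀] at hyS'
        rw [eq_neg_of_add_eq_zero_left hyS', smul_neg, Finset.smul_sum]
        congr 1
        refine Finset.sum_congr rfl fun u _ => ?_
        exact ht' u
      · rw [hinv v hvS hv, ht' v]
    · rw [hsupp v hvS, smul_zero, hyS v hvS]
  exact sub_eq_zero.1 h0

/-- **(B4), first half**: `H²(G, E)` is `p`-divisible. -/
theorem exists_nsmul_eq_H2 [Fact p.Prime] (e : levelCohomology 𝒰 X.X₁ 2) :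
    ∃ e' : levelCohomology 𝒰 X.X₁ 2, p • e' = e := by
  have hp : p.Prime := Fact.out
  obtain ⟨N, hN, hNe⟩ := exists_nsmul_eq_zero 𝒰 X.X₁ 1 e
  obtain ⟨e₁, e₂, he, he₁, he₂⟩ := exists_split hp hN hNe
  obtain ⟨a₁, ha₁⟩ := he₁.exists_nsmul_eq hp
  have hy₂ : IsPPrim p ((Hmap 𝒰 X.f 2).hom e₂) := he₂.map (Hmap 𝒰 X.f 2).hom.toAddMonoidHom
  obtain ⟨y', hy', hy'p, hy'S⟩ := H.exists_nsmul_eq_of_res_eq_zero _ hy₂
    fun v hv => H.res_Hmap_f_eq_zero e₂ v hv
  have hgy' : IsPPrim p ((Hmap 𝒰 X.g 2).hom y') := hy'p.map (Hmap 𝒰 X.g 2).hom.toAddMonoidHom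
  have h1 : (Hmap 𝒰 X.g 2).hom y' = 0 :=
    H.ell_detect _ hgy' fun v hv => by rw [H.ell_res v hv, hy'S v hv]
  obtain ⟨e', rfl⟩ := (Hmap_g_eq_zero_iff 𝒰 hX 2 y').1 h1
  have h2 : (Hmap 𝒰 X.f 2).hom (p • e' - e₂) = 0 := by
    rw [map_sub, map_nsmul, hy', sub_self]
  obtain ⟨m, hm, hme⟩ := H.isPTrivElt_of_Hmap_f_eq_zero hX _ h2
  have h3 : m • e₂ = p • (m • e') := by
    rw [smul_sub, sub_eq_zero] at hme
    rw [← hme, smul_comm]
  obtain ⟨a₂, ha₂⟩ := he₂.exists_nsmul_eq_of_coprime hp hm h3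
  exact ⟨a₁ + a₂, by rw [smul_add, ha₁, ha₂, he]⟩

section KummerPart

variable {μ : Rep.{u} k G} [IsDiscrete 𝒰 μ] {ι : μ ⟶ X.X₁} {w : ι ≫ (p • 𝟙 X.X₁) = 0}
  (hK : (ShortComplex.mk ι (p • 𝟙 X.X₁) w).ShortExact)

include hK

/-- **(K3)**: `H³(G, μ) = 0`. -/
theorem eq_zero_H3_kummer [Fact p.Prime]
    (h3 : ∀ x : levelCohomology 𝒰 X.X₂ 3, p • x = 0 → x = 0) (c : levelCohomology 𝒰 μ 3) :
    c = 0 :=
  eq_zero_of_divisible_of_torsionFree 𝒰 hK 2 (fun y => H.exists_nsmul_eq_H2 hX y)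
    (fun x hx => H.eq_zero_of_nsmul_eq_zero_H3 hX h3 x hx) c

theorem subsingleton_H3_kummer [Fact p.Prime]
    (h3 : ∀ x : levelCohomology 𝒰 X.X₂ 3, p • x = 0 → x = 0) :
    Subsingleton (levelCohomology 𝒰 μ 3) :=
  ⟨fun a b => by rw [H.eq_zero_H3_kummer hX hK h3 a, H.eq_zero_H3_kummer hX hK h3 b]⟩

end KummerPart

end BrauerHypFull

end Brauer

section H1

variable {X : ShortComplex (Rep.{u} k G)} [IsDiscrete 𝒰 X.X₁] [IsDiscrete 𝒰 X.X₂]
  [IsDiscrete 𝒰 X.X₃] (hX : X.ShortExact)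

/-- If `H¹(G, M) = 0` (Hilbert 90) then `δ : H⁰(G, P) → H¹(G, E)` is surjective ... -/
theorem levelδ_zero_surjective (h90 : ∀ x : levelCohomology 𝒰 X.X₂ 1, x = 0) :
    Function.Surjective (levelδ 𝒰 hX 0 1 rfl).hom := by
  intro e
  exact (Hmap_f_eq_zero_iff 𝒰 hX 0 1 rfl e).1 (h90 _)

/-- ... with kernel the image of `H⁰(G, M)`. -/
theorem levelδ_zero_eq_zero_iff (c : levelCohomology 𝒰 X.X₃ 0) :
    (levelδ 𝒰 hX 0 1 rfl).hom c = 0 ↔ ∃ b, (Hmap 𝒰 X.g 0).hom b = c :=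
  levelδ_eq_zero_iff 𝒰 hX 0 1 rfl c

end H1

end Fermat.Agent.S55.CF
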