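/-
S55 / ALG10 (part 7): the core of the `p`-primary Brauer chase, with the "valuation components"
of `BrauerChase` eliminated.

Data: a morphism `f : E ⟶ M` of discrete representations (`E` = `S`-units of `ℚ_S`,
`M = ℚ_S^×`), local Brauer groups `B v` with localisation maps `res v : H²(G, M) → B v` and
invariants `inv v : B v → Q`, and a finite set of places `S`.

Hypotheses (`BrauerCore`): reciprocity (R), Hasse principle (HS) and existence (EX), all for
`p`-primary classes, and the unit sequence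
`0 → H²(G, E)(p) → H²(G, M)(p) → ⊕_{v ∉ S} B v` exact:
(U1) classes coming from `E` are locally trivial outside `S`, (U2) a `p`-primary class which is
locally trivial outside `S` comes from a `p`-primary class of `H²(G, E)`, (U3) `H²(G, E)(p) →
H²(G, M)(p)` is injective.

Conclusions: (B2), (B5) and, for a Kummer sequence `0 → μ → E → E → 0`, ARITH-L (b), (c) of
blueprint v4.  `BrauerHyp.toCore` shows that the hypotheses of `BrauerChase` imply these.
-/
import Fermat.Agent.S55.CF.BrauerChase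
import Fermat.Agent.S55.GL.PRank

set_option autoImplicit false
set_option linter.unusedSectionVars false

open CategoryTheory

namespace Fermat.Agent.S55.CF

open Fermat.Agent.S55.Level Fermat.Agent.S55.PPart

universe u

/-- If `m` is prime to `p` there is `u` with `(u * m) • x = x` for all `x` killed by `p ^ n`. -/
lemma exists_mul_nsmul_eq_self' {p : ℕ} {X : Type*} [AddCommGroup X] (hp : p.Prime) {m : ℕ}
    (hm : m.Coprime p) (n : ℕ) : ∃ u : ℕ, ∀ x : X, p ^ n • x = 0 → (u * m) • x = x := by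
  rcases Nat.eq_zero_or_pos n with rfl | hn
  · refine ⟨0, fun x hx => ?_⟩
    rw [pow_zero, one_smul] at hx
    rw [hx, smul_zero]
  · have hq : 1 < p ^ n := Nat.one_lt_pow hn.ne' hp.one_lt
    obtain ⟨u, t, hut⟩ := exists_mul_eq_one_add hq (Nat.Coprime.pow_right n hm)
    refine ⟨u, fun x hx => ?_⟩
    rw [hut, add_smul, one_smul, mul_smul, hx, smul_zero, add_zero]

variable {k G : Type u} [CommRing k] [Group G] (𝒰 : LevelStructure G)

section Core

variable (p : ℕ) {E M : Rep.{u} k G} [IsDiscrete 𝒰 E] [IsDiscrete 𝒰 M] (f : E ⟶ M)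
  {V : Type*} (S : Finset V) {B : V → Type*} [∀ v, AddCommGroup (B v)]
  {Q : Type*} [AddCommGroup Q] (res : ∀ v, levelCohomology 𝒰 M 2 →+ B v)
  (inv : ∀ v, B v →+ Q)

/-- The arithmetic input of ARITH-L (b), (c), in abstract form. -/
structure BrauerCore : Prop where
  recip : ∀ y, IsPPrim p y →
    ∃ F : Finset V, (∀ v, v ∉ F → res v y = 0) ∧ ∑ v ∈ F, inv v (res v y) = 0
  hasse : ∀ y, IsPPrim p y → (∀ v, res v y = 0) → y = 0
  exist : ∀ (F : Finset V) (x : ∀ v, B v), (∀ v, v ∉ F → x v = 0) → (∀ v, IsPPrim p (x v)) →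
    ∑ v ∈ F, inv v (x v) = 0 → ∃ y, IsPPrim p y ∧ ∀ v, res v y = x v
  unit_res : ∀ v, v ∉ S → ∀ e, IsPPrim p e → res v ((Hmap 𝒰 f 2).hom e) = 0
  unit_lift : ∀ y, IsPPrim p y → (∀ v, v ∉ S → res v y = 0) →
    ∃ e, IsPPrim p e ∧ (Hmap 𝒰 f 2).hom e = y
  unit_inj : ∀ e, IsPPrim p e → (Hmap 𝒰 f 2).hom e = 0 → e = 0

variable {𝒰 p f S res inv}

/-- Variant of the constructor: (U2) and (U3) are only needed up to multiplication by integers
prime to `p`, and (U2) may produce a class which is not `p`-primary. -/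
theorem BrauerCore.mk' [Fact p.Prime]
    (recip : ∀ y, IsPPrim p y →
      ∃ F : Finset V, (∀ v, v ∉ F → res v y = 0) ∧ ∑ v ∈ F, inv v (res v y) = 0)
    (hasse : ∀ y, IsPPrim p y → (∀ v, res v y = 0) → y = 0)
    (exist : ∀ (F : Finset V) (x : ∀ v, B v), (∀ v, v ∉ F → x v = 0) → (∀ v, IsPPrim p (x v)) →
      ∑ v ∈ F, inv v (x v) = 0 → ∃ y, IsPPrim p y ∧ ∀ v, res v y = x v)
    (unit_res : ∀ v, v ∉ S → ∀ e, IsPPrim p e → res v ((Hmap 𝒰 f 2).hom e) = 0)
    (unit_lift : ∀ y, IsPPrim p y → (∀ v, v ∉ S → res v y = 0) →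
      ∃ (m : ℕ) (e : levelCohomology 𝒰 E 2), m.Coprime p ∧ (Hmap 𝒰 f 2).hom e = m • y)
    (unit_ker : ∀ e, IsPPrim p e → (Hmap 𝒰 f 2).hom e = 0 → IsPTrivElt p e) :
    BrauerCore 𝒰 p f S res inv := by
  have hp : p.Prime := Fact.out
  refine ⟨recip, hasse, exist, unit_res, fun y hy hyS => ?_, fun e he hfe =>
    eq_zero_of_isPPrim_of_isPTrivElt hp he (unit_ker e he hfe)⟩
  obtain ⟨m, e₀, hm, he₀⟩ := unit_lift y hy hyS
  -- invert `m` on the `p`-primary class `y`
  have hy0 : IsPPrim p y := hy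
  obtain ⟨n, hn⟩ := hy
  obtain ⟨u, hu⟩ := exists_mul_nsmul_eq_self' (X := levelCohomology 𝒰 M 2) hp hm n
  -- split `u • e₀` into its prime-to-`p` and `p`-primary parts
  obtain ⟨N, hN, hNe⟩ := exists_nsmul_eq_zero 𝒰 E 1 (u • e₀)
  obtain ⟨e₁, e₂, hsplit, h1, h2⟩ := exists_split hp hN hNe
  refine ⟨e₂, h2, ?_⟩
  have hy' : (Hmap 𝒰 f 2).hom (u • e₀) = y := by
    rw [map_nsmul, he₀, ← mul_smul]
    exact hu y hn
  have h3 : (Hmap 𝒰 f 2).hom e₁ = y - (Hmap 𝒰 f 2).hom e₂ := by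
    rw [← hy', hsplit, map_add, add_sub_cancel_right]
  have h4 : (Hmap 𝒰 f 2).hom e₁ = 0 :=
    eq_zero_of_isPPrim_of_isPTrivElt hp
      (h3 ▸ hy0.sub (h2.map (Hmap 𝒰 f 2).hom.toAddMonoidHom))
      (h1.map (Hmap 𝒰 f 2).hom.toAddMonoidHom)
  rw [h4] at h3
  exact (sub_eq_zero.1 h3.symm).symm

namespace BrauerCore

variable (H : BrauerCore 𝒰 p f S res inv)

include H

/-- Reciprocity over any finite set containing the support. -/
lemma recip' (y : levelCohomology 𝒰 M 2) (hy : IsPPrim p y) (F' : Finset V)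
    (hF' : ∀ v, v ∉ F' → res v y = 0) : ∑ v ∈ F', inv v (res v y) = 0 := by
  classical
  obtain ⟨F, hF, hsum⟩ := H.recip y hy
  have h1 : ∑ v ∈ F', inv v (res v y) = ∑ v ∈ F ∪ F', inv v (res v y) :=
    Finset.sum_subset Finset.subset_union_right fun v _ hv => by rw [hF' v hv, map_zero]
  have h2 : ∑ v ∈ F, inv v (res v y) = ∑ v ∈ F ∪ F', inv v (res v y) :=
    Finset.sum_subset Finset.subset_union_left fun v _ hv => by rw [hF v hv, map_zero]
  rw [h1, ← h2, hsum]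

/-- **(B2)**: a `p`-primary class of `H²(G, E)` with trivial local components at the places of
`S` vanishes. -/
theorem eq_zero_of_res_eq_zero (e : levelCohomology 𝒰 E 2) (he : IsPPrim p e)
    (hS : ∀ v, v ∈ S → res v ((Hmap 𝒰 f 2).hom e) = 0) : e = 0 := by
  apply H.unit_inj e he
  apply H.hasse _ (he.map (Hmap 𝒰 f 2).hom.toAddMonoidHom)
  intro v
  by_cases hv : v ∈ S
  · exact hS v hv
  · exact H.unit_res v hv e he

/-- Reciprocity for classes coming from `E`: the sum of the invariants over `S` vanishes. -/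
theorem sum_inv_res_Hmap_f (e : levelCohomology 𝒰 E 2) (he : IsPPrim p e) :
    ∑ v ∈ S, inv v (res v ((Hmap 𝒰 f 2).hom e)) = 0 :=
  H.recip' _ (he.map (Hmap 𝒰 f 2).hom.toAddMonoidHom) S fun v hv => H.unit_res v hv e he

/-- **(B5)**: every family of `p`-torsion local classes at the places of `S` whose invariants sum
to zero comes from a `p`-torsion class of `H²(G, E)`. -/
theorem exists_of_sum_inv_eq_zero (x : ∀ v, B v) (hx : ∀ v, p • x v = 0)
    (hxS : ∀ v, v ∉ S → x v = 0) (hsum : ∑ v ∈ S, inv v (x v) = 0) :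
    ∃ e : levelCohomology 𝒰 E 2, p • e = 0 ∧ ∀ v, res v ((Hmap 𝒰 f 2).hom e) = x v := by
  obtain ⟨y, hyp, hy⟩ := H.exist S x hxS (fun v => IsPPrim.of_nsmul_eq_zero (hx v)) hsum
  have hpy : p • y = 0 := H.hasse _ (hyp.nsmul p) fun v => by rw [map_nsmul, hy v, hx v]
  obtain ⟨e, hep, he⟩ := H.unit_lift y hyp fun v hv => by rw [hy v, hxS v hv]
  refine ⟨e, H.unit_inj _ (hep.nsmul p) (by rw [map_nsmul, he, hpy]), fun v => ?_⟩
  rw [he, hy v]

section KummerPart

variable {μ : Rep.{u} k G} [IsDiscrete 𝒰 μ] {ι : μ ⟶ E} {w : ι ≫ (p • 𝟙 E) = 0}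
  (hK : (ShortComplex.mk ι (p • 𝟙 E) w).ShortExact)

include hK

/-- **(K2), image**: a family of `p`-torsion local classes at the places of `S` is the
localisation of a class of `H²(G, μ)` iff its invariants sum to zero. -/
theorem sum_inv_eq_zero_iff_exists_kummer (x : ∀ v, B v) (hx : ∀ v, p • x v = 0)
    (hxS : ∀ v, v ∉ S → x v = 0) :
    ∑ v ∈ S, inv v (x v) = 0 ↔ ∃ c : levelCohomology 𝒰 μ 2,
      ∀ v, res v ((Hmap 𝒰 f 2).hom ((Hmap 𝒰 ι 2).hom c)) = x v := by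
  constructor
  · intro hsum
    obtain ⟨e, he, hex⟩ := H.exists_of_sum_inv_eq_zero x hx hxS hsum
    obtain ⟨c, rfl⟩ := (kummer_nsmul_eq_zero_iff 𝒰 hK 2 e).1 he
    exact ⟨c, hex⟩
  · rintro ⟨c, hc⟩
    have hpc : p • (Hmap 𝒰 ι 2).hom c = 0 := by
      rw [← map_nsmul, nsmul_levelCohomology_eq_zero 𝒰 hK 2 c, map_zero]
    have := H.sum_inv_res_Hmap_f ((Hmap 𝒰 ι 2).hom c) (IsPPrim.of_nsmul_eq_zero hpc)
    simpa only [hc] using this

/-- **(K2), kernel**: a class of `H²(G, μ)` is locally trivial at the places of `S` iff it is a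
Kummer boundary of a class of `H¹(G, E)`. -/
theorem res_eq_zero_iff_exists_kummerδ (c : levelCohomology 𝒰 μ 2) :
    (∀ v, v ∈ S → res v ((Hmap 𝒰 f 2).hom ((Hmap 𝒰 ι 2).hom c)) = 0) ↔
      ∃ a : levelCohomology 𝒰 E 1, (kummerδ 𝒰 hK 1).hom a = c := by
  constructor
  · intro h
    have hpc : p • (Hmap 𝒰 ι 2).hom c = 0 := by
      rw [← map_nsmul, nsmul_levelCohomology_eq_zero 𝒰 hK 2 c, map_zero]
    have h0 := H.eq_zero_of_res_eq_zero _ (IsPPrim.of_nsmul_eq_zero hpc) h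
    exact (Hmap_ι_eq_zero_iff 𝒰 hK 1 c).1 h0
  · rintro ⟨a, rfl⟩ v _
    rw [(Hmap_ι_eq_zero_iff 𝒰 hK 1 _).2 ⟨a, rfl⟩, map_zero, map_zero]

/-! ### The same statements for the localisation maps of `μ` itself -/

variable {Bμ : V → Type*} [∀ v, AddCommGroup (Bμ v)] (locμ : ∀ v, levelCohomology 𝒰 μ 2 →+ Bμ v)
  (κ : ∀ v, Bμ v →+ B v) (hκ_inj : ∀ v, v ∈ S → Function.Injective (κ v))
  (hsq : ∀ v, v ∈ S → ∀ c, κ v (locμ v c) = res v ((Hmap 𝒰 f 2).hom ((Hmap 𝒰 ι 2).hom c)))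

include hκ_inj hsq

/-- **ARITH-L (b)**: the kernel of the localisation map `H²(G, μ) → ∏_{w ∈ S} H²(G_w, μ)` is the
image of the Kummer boundary `H¹(G, E) → H²(G, μ)` (whose kernel is `p H¹(G, E)`, see
`kummerδ_eq_zero_iff`). -/
theorem locμ_eq_zero_iff_exists_kummerδ (c : levelCohomology 𝒰 μ 2) :
    (∀ v, v ∈ S → locμ v c = 0) ↔
      ∃ a : levelCohomology 𝒰 E 1, (kummerδ 𝒰 hK 1).hom a = c := by
  rw [← H.res_eq_zero_iff_exists_kummerδ hK c]
  refine forall₂_congr fun v hv => ?_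
  rw [← hsq v hv c]
  exact ⟨fun h => by rw [h, map_zero], fun h => hκ_inj v hv (by rw [h, map_zero])⟩

/-- **ARITH-L (c)**: a family of local classes `x v ∈ H²(G_v, μ)` (`v ∈ S`) is the localisation
of a global class iff the invariants of its images in the local Brauer groups sum to zero. -/
theorem exists_locμ_eq_iff (hBμ : ∀ v (a : Bμ v), p • a = 0) (x : ∀ v, Bμ v) :
    (∃ c : levelCohomology 𝒰 μ 2, ∀ v, v ∈ S → locμ v c = x v) ↔
      ∑ v ∈ S, inv v (κ v (x v)) = 0 := by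
  classical
  let x' : ∀ v, B v := fun v => if v ∈ S then κ v (x v) else 0
  have hx' : ∀ v, p • x' v = 0 := by
    intro v
    by_cases hv : v ∈ S
    · simp only [x', if_pos hv]
      rw [← map_nsmul, hBμ v (x v), map_zero]
    · simp only [x', if_neg hv, smul_zero]
  have hx'S : ∀ v, v ∉ S → x' v = 0 := fun v hv => by simp only [x', if_neg hv]
  have hsum : ∑ v ∈ S, inv v (x' v) = ∑ v ∈ S, inv v (κ v (x v)) :=
    Finset.sum_congr rfl fun v hv => by simp only [x', if_pos hv]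
  rw [← hsum, H.sum_inv_eq_zero_iff_exists_kummer hK x' hx' hx'S]
  constructor
  · rintro ⟨c, hc⟩
    refine ⟨c, fun v => ?_⟩
    by_cases hv : v ∈ S
    · rw [← hsq v hv c, hc v hv]
      simp only [x', if_pos hv]
    · have hpc : p • (Hmap 𝒰 ι 2).hom c = 0 := by
        rw [← map_nsmul, nsmul_levelCohomology_eq_zero 𝒰 hK 2 c, map_zero]
      rw [H.unit_res v hv _ (IsPPrim.of_nsmul_eq_zero hpc), hx'S v hv]
  · rintro ⟨c, hc⟩
    refine ⟨c, fun v hv => hκ_inj v hv ?_⟩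
    rw [hsq v hv c, hc v]
    simp only [x', if_pos hv]

/-- The kernel of the localisation maps of `μ` at the places of `S` (`Ш²` relative to `S`). -/
def kerLocμ : AddSubgroup (levelCohomology 𝒰 μ 2) where
  carrier := {c | ∀ v, v ∈ S → locμ v c = 0}
  zero_mem' := fun v _ => map_zero _
  add_mem' := fun ha hb v hv => by rw [map_add, ha v hv, hb v hv, add_zero]
  neg_mem' := fun ha v hv => by rw [map_neg, ha v hv, neg_zero]

omit H hK hκ_inj hsq in
lemma mem_kerLocμ (c : levelCohomology 𝒰 μ 2) :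
    c ∈ kerLocμ (S := S) locμ ↔ ∀ v, v ∈ S → locμ v c = 0 := Iff.rfl

/-- **ARITH-L (b), counting form**: if `H¹(G, E)` embeds into a finite abelian group `C`
(`C = Cl_S(L)`), the kernel of the localisation maps `H²(G, μ) → ∏_{w ∈ S} H²(G_w, μ)` has at
most `|C / pC|` elements. -/
theorem card_kerLocμ_le {C : Type*} [AddCommGroup C] [Finite C]
    (φ : levelCohomology 𝒰 E 1 →+ C) (hφ : Function.Injective φ) :
    Nat.card (kerLocμ (S := S) locμ) ≤
      Nat.card (C ⧸ (nsmulAddMonoidHom p : C →+ C).range) := by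
  have hfin : Finite (levelCohomology 𝒰 E 1) := Finite.of_injective φ hφ
  refine le_trans ?_ (GL.PRank.card_quotient_range_nsmul_le_of_injective φ hφ p)
  -- the Kummer boundary, with values in the kernel
  let δ' : levelCohomology 𝒰 E 1 →+ kerLocμ (S := S) locμ :=
    (kummerδ 𝒰 hK 1).hom.toAddMonoidHom.codRestrict _ fun a =>
      (H.locμ_eq_zero_iff_exists_kummerδ hK locμ κ hκ_inj hsq _).2 ⟨a, rfl⟩
  have hδ' : Function.Surjective δ' := by
    rintro ⟨c, hc⟩
    obtain ⟨a, rfl⟩ := (H.locμ_eq_zero_iff_exists_kummerδ hK locμ κ hκ_inj hsq c).1 hc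
    exact ⟨a, rfl⟩
  have hker : (nsmulAddMonoidHom p : levelCohomology 𝒰 E 1 →+ _).range ≤ δ'.ker := by
    rintro _ ⟨a, rfl⟩
    rw [AddMonoidHom.mem_ker]
    apply Subtype.ext
    exact (kummerδ_eq_zero_iff 𝒰 hK 1 _).2 ⟨a, rfl⟩
  exact Nat.card_le_card_of_surjective (QuotientAddGroup.lift _ δ' hker)
    (QuotientAddGroup.lift_surjective_of_surjective _ δ' hδ' hker)

end KummerPart

end BrauerCore

end Core

/-! ### From `BrauerHyp` to `BrauerCore` -/

section OfHyp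

variable {p : ℕ} {X : ShortComplex (Rep.{u} k G)} [IsDiscrete 𝒰 X.X₁] [IsDiscrete 𝒰 X.X₂]
  [IsDiscrete 𝒰 X.X₃] {V : Type*} {S : Finset V} {B : V → Type*} [∀ v, AddCommGroup (B v)]
  {Q : Type*} [AddCommGroup Q] {res : ∀ v, levelCohomology 𝒰 X.X₂ 2 →+ B v}
  {inv : ∀ v, B v →+ Q} {ell : ∀ v, levelCohomology 𝒰 X.X₃ 2 →+ B v}

/-- The hypotheses of `BrauerChase` imply those of `BrauerCore`. -/
theorem BrauerHyp.toCore [Fact p.Prime] (H : BrauerHyp 𝒰 p X S res inv ell) (hX : X.ShortExact) :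
    BrauerCore 𝒰 p X.f S res inv := by
  refine BrauerCore.mk' H.recip H.hasse H.exist (fun v hv e _ => H.res_Hmap_f_eq_zero e v hv)
    (fun y hy hyS => ?_) (fun e _ hfe => H.isPTrivElt_of_Hmap_f_eq_zero hX e hfe)
  have hgy : IsPPrim p ((Hmap 𝒰 X.g 2).hom y) := hy.map (Hmap 𝒰 X.g 2).hom.toAddMonoidHom
  have h1 : (Hmap 𝒰 X.g 2).hom y = 0 :=
    H.ell_detect _ hgy fun v hv => by rw [H.ell_res v hv, hyS v hv]
  obtain ⟨e₀, rfl⟩ := (Hmap_g_eq_zero_iff 𝒰 hX 2 y).1 h1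
  exact ⟨1, e₀, Nat.coprime_one_left p, (one_smul _ _).symm⟩

end OfHyp

end Fermat.Agent.S55.CF
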