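/-
S55 / GLO12b (helper4): the finite-level ideal-class chases, abstractly.

Setting (plain Mathlib `groupCohomology`): `f : H →* G` (in the application `G = Gal(L'/K)`,
`H = Gal(L''/K)`, `f` the projection), two short exact sequences of `G`-modules
`0 → E → L → P → 0`, `0 → P → I → Cl → 0` (units, field, principal ideals, ideals, class group),
the same over `H` (primed), and comparison morphisms `φE … φCl : res f _ ⟶ _'` making the four
squares commute.

* `exists_δδ_eq` : a class `x ∈ Hⁿ⁺²(G,E)` dying in `Hⁿ⁺²(G,L)` is `δ₁ (δ₂ a)`, `a ∈ Hⁿ(G,Cl)`, as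
  soon as `Hⁿ⁺¹(G,I) = 0`;
* `map_δδ` : `map f φE (δ₁ (δ₂ a)) = δ₁' (δ₂' (map f φCl a))`;
* `nsmul_map_eq_zero_of_map_eq_zero` = **(B2′)**: if moreover `m • map f φCl n a = 0`
  (capitulation of the class `a` up to the integer `m`), then `m • map f φE (n+2) x = 0`;
* `exists_δ_eq_of_map_eq_zero`, `exists_map_eq_nsmul` = **pull back to the units**: a class
  `y ∈ Hⁿ⁺¹(G,L)` with zero image in `Hⁿ⁺¹(G,I)` has `Hⁿ⁺¹(π) y = δ₂ z`, `z ∈ Hⁿ(G,Cl)`, and if
  `m • map f φCl n z = 0` then `m • map f φL (n+1) y` comes from `Hⁿ⁺¹(H,E')`;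
* degree-zero dictionary `map_H0Iso_inv_apply` (classes in `H⁰` are invariant elements and `map`
  is `φ` on them), so that the capitulation hypothesis can be checked on elements of `Cl`.
-/
import Fermat.Agent.S55.GC.ResDelta

set_option autoImplicit false

namespace Fermat.Agent.S55.CF.IdealChase

open CategoryTheory groupCohomology Rep Limits

universe u

section MapLemmas

variable {k G H : Type u} [CommRing k] [Group G] [Group H] (f : H →* G)

/-- `map f` is additive in the coefficient morphism. -/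
lemma map_add_hom {A : Rep.{u} k G} {B : Rep.{u} k H} (φ ψ : res f A ⟶ B) (n : ℕ) :
    map f (φ + ψ) n = map f φ n + map f ψ n := by
  have h : cochainsMap f (φ + ψ) = cochainsMap f φ + cochainsMap f ψ := by
    ext i x
    rfl
  rw [groupCohomology.map, h, HomologicalComplex.homologyMap_add]
  rfl

lemma map_zero_hom {A : Rep.{u} k G} {B : Rep.{u} k H} (n : ℕ) :
    map f (0 : res f A ⟶ B) n = 0 := by
  rw [groupCohomology.map, cochainsMap_zero, HomologicalComplex.homologyMap_zero]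
  rfl

lemma map_nsmul_hom {A : Rep.{u} k G} {B : Rep.{u} k H} (φ : res f A ⟶ B) (m n : ℕ) :
    map f (m • φ) n = m • map f φ n := by
  induction m with
  | zero => rw [zero_smul, zero_smul, map_zero_hom]
  | succ m ih => rw [succ_nsmul, succ_nsmul, map_add_hom, ih]

/-- Functoriality square for `map`. -/
lemma map_comm_of_sq {A A' : Rep.{u} k G} {B B' : Rep.{u} k H} (α : A ⟶ A') (β : B ⟶ B')
    (φ : res f A ⟶ B) (φ' : res f A' ⟶ B')
    (h : (resFunctor f).map α ≫ φ' = φ ≫ β) (n : ℕ) :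
    map (MonoidHom.id G) α n ≫ map f φ' n = map f φ n ≫ map (MonoidHom.id H) β n := by
  have e1 : map (MonoidHom.id G) α n ≫ map f φ' n =
      map ((MonoidHom.id G).comp f) ((resFunctor f).map α ≫ φ') n :=
    (map_comp (MonoidHom.id G) f α φ' n).symm
  have e2 : map f φ n ≫ map (MonoidHom.id H) β n =
      map (f.comp (MonoidHom.id H)) ((resFunctor (MonoidHom.id H)).map φ ≫ β) n :=
    (map_comp f (MonoidHom.id H) φ β n).symm
  rw [e1, e2]
  unfold groupCohomology.map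
  congr 1
  exact cochainsMap_congr rfl (by rw [h]; rfl)

lemma map_comm_of_sq_apply {A A' : Rep.{u} k G} {B B' : Rep.{u} k H} (α : A ⟶ A') (β : B ⟶ B')
    (φ : res f A ⟶ B) (φ' : res f A' ⟶ B')
    (h : (resFunctor f).map α ≫ φ' = φ ≫ β) (n : ℕ) (x : groupCohomology A n) :
    (map f φ' n).hom ((map (MonoidHom.id G) α n).hom x) =
      (map (MonoidHom.id H) β n).hom ((map f φ n).hom x) :=
  congrArg (fun t => t.hom x) (map_comm_of_sq f α β φ φ' h n)

lemma nsmul_map_apply_eq_zero_of_nsmul_eq_zero {A : Rep.{u} k G} {B : Rep.{u} k H}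
    (φ : res f A ⟶ B) (m : ℕ) (hm : m • φ = 0) (n : ℕ) (a : groupCohomology A n) :
    m • (map f φ n).hom a = 0 := by
  have h : m • map f φ n = 0 := by rw [← map_nsmul_hom, hm, map_zero_hom]
  exact congrArg (fun t => t.hom a) h

/-- A morphism `res f A ⟶ B` maps `G`-invariants to `H`-invariants. -/
lemma hom_mem_invariants {A : Rep.{u} k G} {B : Rep.{u} k H} (φ : res f A ⟶ B) (c : A)
    (hc : c ∈ A.ρ.invariants) : φ.hom c ∈ B.ρ.invariants := by
  intro h
  have := Rep.hom_comm_apply φ h c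
  rw [← this]
  congr 1
  exact hc (f h)

/-- Degree zero dictionary: on invariants, `map f φ 0` is `φ`. -/
lemma map_H0Iso_inv_apply {A : Rep.{u} k G} {B : Rep.{u} k H} (φ : res f A ⟶ B)
    (c : A.ρ.invariants) :
    (map f φ 0).hom ((H0Iso A).inv c) =
      (H0Iso B).inv ⟨φ.hom c.1, hom_mem_invariants f φ c.1 c.2⟩ := by
  have h := map_H0Iso_hom_f_apply f φ ((H0Iso A).inv c)
  have hinj : Function.Injective (ConcreteCategory.hom (H0Iso B).hom) :=
    (ConcreteCategory.bijective_of_isIso (H0Iso B).hom).1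
  apply hinj
  rw [Iso.inv_hom_id_apply] at h ⊢
  exact Subtype.ext h

/-- If `m • φ c = 0` for an invariant element `c`, then `m` kills the image of its class. -/
lemma nsmul_map_H0Iso_inv_eq_zero {A : Rep.{u} k G} {B : Rep.{u} k H} (φ : res f A ⟶ B)
    (c : A.ρ.invariants) (m : ℕ) (hc : m • φ.hom c.1 = 0) :
    m • (map f φ 0).hom ((H0Iso A).inv c) = 0 := by
  rw [map_H0Iso_inv_apply, ← map_nsmul]
  have : m • (⟨φ.hom c.1, hom_mem_invariants f φ c.1 c.2⟩ : B.ρ.invariants) = 0 :=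
    Subtype.ext hc
  rw [this, map_zero]

/-- Every class of `H⁰` is the class of an invariant element. -/
lemma exists_H0Iso_inv_eq {A : Rep.{u} k G} (a : groupCohomology A 0) :
    ∃ c : A.ρ.invariants, (H0Iso A).inv c = a :=
  ⟨(H0Iso A).hom a, Iso.hom_inv_id_apply _ _⟩

end MapLemmas


section LES

variable {k G : Type u} [CommRing k] [Group G] {X : ShortComplex (Rep.{u} k G)}
  (hX : X.ShortExact)

/-- Exactness at `Hⁿ⁺¹(X₁)`, elementwise. -/
lemma exists_δ_eq (n : ℕ) (x : groupCohomology X.X₁ (n + 1))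
    (hx : (map (MonoidHom.id G) X.f (n + 1)).hom x = 0) :
    ∃ z : groupCohomology X.X₃ n, (δ hX n (n + 1) rfl).hom z = x :=
  (ShortComplex.moduleCat_exact_iff _).1 (mapShortComplex₁_exact hX (i := n) rfl) x hx

include hX in
/-- Exactness at `Hⁿ(X₂)`, elementwise. -/
lemma exists_map_f_eq (n : ℕ) (y : groupCohomology X.X₂ n)
    (hy : (map (MonoidHom.id G) X.g n).hom y = 0) :
    ∃ x : groupCohomology X.X₁ n, (map (MonoidHom.id G) X.f n).hom x = y :=
  (ShortComplex.moduleCat_exact_iff _).1 (mapShortComplex₂_exact hX n) y hy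

/-- Exactness at `Hⁿ(X₃)`, elementwise. -/
lemma exists_map_g_eq (n : ℕ) (z : groupCohomology X.X₃ n)
    (hz : (δ hX n (n + 1) rfl).hom z = 0) :
    ∃ y : groupCohomology X.X₂ n, (map (MonoidHom.id G) X.g n).hom y = z :=
  (ShortComplex.moduleCat_exact_iff _).1 (mapShortComplex₃_exact hX (i := n) rfl) z hz

lemma map_f_δ (n : ℕ) (z : groupCohomology X.X₃ n) :
    (map (MonoidHom.id G) X.f (n + 1)).hom ((δ hX n (n + 1) rfl).hom z) = 0 :=
  congrArg (fun t => t.hom z) (mapShortComplex₁ hX (i := n) rfl).zero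

lemma δ_map_g (n : ℕ) (y : groupCohomology X.X₂ n) :
    (δ hX n (n + 1) rfl).hom ((map (MonoidHom.id G) X.g n).hom y) = 0 :=
  congrArg (fun t => t.hom y) (mapShortComplex₃ hX (i := n) rfl).zero

lemma map_g_map_f (n : ℕ) (x : groupCohomology X.X₁ n) :
    (map (MonoidHom.id G) X.g n).hom ((map (MonoidHom.id G) X.f n).hom x) = 0 :=
  congrArg (fun t => t.hom x) (mapShortComplex₂ X n).zero

end LES


section Chase

variable {k G H : Type u} [CommRing k] [Group G] [Group H] (f : H →* G)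
  {E L P I Cl : Rep.{u} k G} {i : E ⟶ L} {π : L ⟶ P} {j : P ⟶ I} {q : I ⟶ Cl}
  {w₁ : i ≫ π = 0} {w₂ : j ≫ q = 0}
  (h₁ : (ShortComplex.mk i π w₁).ShortExact) (h₂ : (ShortComplex.mk j q w₂).ShortExact)
  {E' L' P' I' Cl' : Rep.{u} k H} {i' : E' ⟶ L'} {π' : L' ⟶ P'} {j' : P' ⟶ I'} {q' : I' ⟶ Cl'}
  {w₁' : i' ≫ π' = 0} {w₂' : j' ≫ q' = 0}
  (h₁' : (ShortComplex.mk i' π' w₁').ShortExact) (h₂' : (ShortComplex.mk j' q' w₂').ShortExact)
  (φE : res f E ⟶ E') (φL : res f L ⟶ L') (φP : res f P ⟶ P') (φI : res f I ⟶ I')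
  (φCl : res f Cl ⟶ Cl')
  (sqE : (resFunctor f).map i ≫ φL = φE ≫ i')
  (sqL : (resFunctor f).map π ≫ φP = φL ≫ π')
  (sqP : (resFunctor f).map j ≫ φI = φP ≫ j')
  (sqI : (resFunctor f).map q ≫ φCl = φI ≫ q')

/-- The double connecting homomorphism `Hⁿ(G,Cl) → Hⁿ⁺¹(G,P) → Hⁿ⁺²(G,E)`. -/
noncomputable def δδ (n : ℕ) : groupCohomology Cl n →ₗ[k] groupCohomology E (n + 2) :=
  (δ h₁ (n + 1) (n + 2) rfl).hom ∘ₗ (δ h₂ n (n + 1) rfl).hom

lemma δδ_apply (n : ℕ) (a : groupCohomology Cl n) :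
    δδ h₁ h₂ n a = (δ h₁ (n + 1) (n + 2) rfl).hom ((δ h₂ n (n + 1) rfl).hom a) := rfl

/-- A class of `Hⁿ⁺²(G,E)` dying in `Hⁿ⁺²(G,L)` is a double boundary of a class of `Hⁿ(G,Cl)`,
as soon as `Hⁿ⁺¹(G,I) = 0`. -/
theorem exists_δδ_eq (n : ℕ) (hI : IsZero (groupCohomology I (n + 1)))
    (x : groupCohomology E (n + 2)) (hx : (map (MonoidHom.id G) i (n + 2)).hom x = 0) :
    ∃ a : groupCohomology Cl n, δδ h₁ h₂ n a = x := by
  obtain ⟨b, hb⟩ := exists_δ_eq h₁ (n + 1) x hx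
  have hb0 : (map (MonoidHom.id G) j (n + 1)).hom b = 0 :=
    (ModuleCat.isZero_iff_subsingleton.1 hI).elim _ _
  obtain ⟨a, ha⟩ := exists_δ_eq h₂ n b hb0
  exact ⟨a, (congrArg (δ h₁ (n + 1) (n + 2) rfl).hom ha).trans hb⟩

/-- The double boundary dies in `Hⁿ⁺²(G,L)`. -/
lemma map_δδ_eq_zero (n : ℕ) (a : groupCohomology Cl n) :
    (map (MonoidHom.id G) i (n + 2)).hom (δδ h₁ h₂ n a) = 0 :=
  map_f_δ h₁ (n + 1) _

include sqE sqL sqP sqI in
/-- Naturality of the double connecting homomorphism under change of group. -/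
theorem map_δδ (n : ℕ) (a : groupCohomology Cl n) :
    (map f φE (n + 2)).hom (δδ h₁ h₂ n a) = δδ h₁' h₂' n ((map f φCl n).hom a) := by
  have e1 := congrArg (fun t => t.hom ((δ h₂ n (n + 1) rfl).hom a))
    (GC.ResDelta.δ_map_comm f h₁ h₁' φE φL φP sqE sqL (n + 1) (n + 2) rfl)
  have e2 := congrArg (fun t => t.hom a)
    (GC.ResDelta.δ_map_comm f h₂ h₂' φP φI φCl sqP sqI n (n + 1) rfl)
  exact e1.trans (congrArg (δ h₁' (n + 1) (n + 2) rfl).hom e2)

include h₁' h₂' sqE sqL sqP sqI in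
/-- **(B2′), elementwise**: if the class `a ∈ Hⁿ(G,Cl)` capitulates over `H` up to the integer `m`,
then `m` kills the image over `H` of the double boundary of `a`. -/
theorem nsmul_map_δδ_eq_zero (n m : ℕ) (a : groupCohomology Cl n)
    (ha : m • (map f φCl n).hom a = 0) :
    m • (map f φE (n + 2)).hom (δδ h₁ h₂ n a) = 0 := by
  rw [map_δδ f h₁ h₂ h₁' h₂' φE φL φP φI φCl sqE sqL sqP sqI, ← map_nsmul, ha, map_zero]

include h₁ h₂ h₁' h₂' sqE sqL sqP sqI in
/-- **(B2′)**: if `Hⁿ⁺¹(G,I) = 0` and `m` kills `Hⁿ(G,Cl) → Hⁿ(H,Cl')`, then `m` kills the image in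
`Hⁿ⁺²(H,E')` of `ker(Hⁿ⁺²(G,E) → Hⁿ⁺²(G,L))`. -/
theorem nsmul_map_eq_zero_of_map_eq_zero (n m : ℕ) (hI : IsZero (groupCohomology I (n + 1)))
    (hm : ∀ a : groupCohomology Cl n, m • (map f φCl n).hom a = 0)
    (x : groupCohomology E (n + 2)) (hx : (map (MonoidHom.id G) i (n + 2)).hom x = 0) :
    m • (map f φE (n + 2)).hom x = 0 := by
  obtain ⟨a, rfl⟩ := exists_δδ_eq h₁ h₂ n hI x hx
  exact nsmul_map_δδ_eq_zero f h₁ h₂ h₁' h₂' φE φL φP φI φCl sqE sqL sqP sqI n m a (hm a)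

/-- A class of `Hⁿ⁺¹(G,L)` with zero image in `Hⁿ⁺¹(G,I)`: its image in `Hⁿ⁺¹(G,P)` is a boundary
from `Hⁿ(G,Cl)`. -/
theorem exists_δ_eq_map_π (n : ℕ) (y : groupCohomology L (n + 1))
    (hy : (map (MonoidHom.id G) j (n + 1)).hom ((map (MonoidHom.id G) π (n + 1)).hom y) = 0) :
    ∃ z : groupCohomology Cl n,
      (δ h₂ n (n + 1) rfl).hom z = (map (MonoidHom.id G) π (n + 1)).hom y :=
  exists_δ_eq h₂ n _ hy

include h₁' h₂' sqL sqP sqI in
/-- **Pull-back to the units, elementwise**: if `Hⁿ⁺¹(π) y = δ z` and `z` capitulates over `H` up to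
`m`, then `m • (image of y over H)` comes from `Hⁿ⁺¹(H,E')`. -/
theorem exists_map_eq_nsmul_of_δ_eq (n m : ℕ) (y : groupCohomology L (n + 1))
    (z : groupCohomology Cl n)
    (hz : (δ h₂ n (n + 1) rfl).hom z = (map (MonoidHom.id G) π (n + 1)).hom y)
    (hm : m • (map f φCl n).hom z = 0) :
    ∃ e : groupCohomology E' (n + 1),
      (map (MonoidHom.id H) i' (n + 1)).hom e = m • (map f φL (n + 1)).hom y := by
  apply exists_map_f_eq h₁' (n + 1)
  have e1 : (map (MonoidHom.id H) π' (n + 1)).hom ((map f φL (n + 1)).hom y) =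
      (map f φP (n + 1)).hom ((map (MonoidHom.id G) π (n + 1)).hom y) :=
    (map_comm_of_sq_apply f π π' φL φP sqL (n + 1) y).symm
  have e2 : (map f φP (n + 1)).hom ((δ h₂ n (n + 1) rfl).hom z) =
      (δ h₂' n (n + 1) rfl).hom ((map f φCl n).hom z) :=
    congrArg (fun t => t.hom z) (GC.ResDelta.δ_map_comm f h₂ h₂' φP φI φCl sqP sqI n (n + 1) rfl)
  show (map (MonoidHom.id H) π' (n + 1)).hom (m • (map f φL (n + 1)).hom y) = 0
  rw [map_nsmul, e1, ← hz, e2, ← map_nsmul, hm, map_zero]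

include h₂ h₁' h₂' sqL sqP sqI in
/-- **Pull-back to the units**: if `m` kills `Hⁿ(G,Cl) → Hⁿ(H,Cl')`, every class
`y ∈ Hⁿ⁺¹(G,L)` with zero image in `Hⁿ⁺¹(G,I)` has `m • (image of y over H)` in the image of
`Hⁿ⁺¹(H,E')`. -/
theorem exists_map_eq_nsmul (n m : ℕ)
    (hm : ∀ a : groupCohomology Cl n, m • (map f φCl n).hom a = 0)
    (y : groupCohomology L (n + 1))
    (hy : (map (MonoidHom.id G) j (n + 1)).hom ((map (MonoidHom.id G) π (n + 1)).hom y) = 0) :
    ∃ e : groupCohomology E' (n + 1),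
      (map (MonoidHom.id H) i' (n + 1)).hom e = m • (map f φL (n + 1)).hom y := by
  obtain ⟨z, hz⟩ := exists_δ_eq_map_π h₂ n y hy
  exact exists_map_eq_nsmul_of_δ_eq f h₂ h₁' h₂' φL φP φI φCl sqL sqP sqI n m y z hz (hm z)

/-! ### Morphism-level capitulation hypothesis `m • φCl = 0` -/

include h₁ h₂ h₁' h₂' sqE sqL sqP sqI in
/-- **(B2′)** with the capitulation hypothesis `m • φCl = 0`. -/
theorem nsmul_map_eq_zero_of_nsmul_eq_zero (n m : ℕ) (hI : IsZero (groupCohomology I (n + 1)))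
    (hm : m • φCl = 0)
    (x : groupCohomology E (n + 2)) (hx : (map (MonoidHom.id G) i (n + 2)).hom x = 0) :
    m • (map f φE (n + 2)).hom x = 0 :=
  nsmul_map_eq_zero_of_map_eq_zero f h₁ h₂ h₁' h₂' φE φL φP φI φCl sqE sqL sqP sqI n m hI
    (nsmul_map_apply_eq_zero_of_nsmul_eq_zero f φCl m hm n) x hx

include h₂ h₁' h₂' sqL sqP sqI in
/-- **Pull-back to the units** with the capitulation hypothesis `m • φCl = 0`. -/
theorem exists_map_eq_nsmul_of_nsmul_eq_zero (n m : ℕ) (hm : m • φCl = 0)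
    (y : groupCohomology L (n + 1))
    (hy : (map (MonoidHom.id G) j (n + 1)).hom ((map (MonoidHom.id G) π (n + 1)).hom y) = 0) :
    ∃ e : groupCohomology E' (n + 1),
      (map (MonoidHom.id H) i' (n + 1)).hom e = m • (map f φL (n + 1)).hom y :=
  exists_map_eq_nsmul f h₂ h₁' h₂' φL φP φI φCl sqL sqP sqI n m
    (nsmul_map_apply_eq_zero_of_nsmul_eq_zero f φCl m hm n) y hy

/-! ### Degree two, with the capitulation hypothesis on one invariant ideal class -/

/-- A class of `H²(G,E)` dying in `H²(G,L)` is the double boundary of (the class of) an invariant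
element `c` of `Cl` (an ambiguous ideal class), if `H¹(G,I) = 0`. -/
theorem exists_invariant_δδ_eq (hI : IsZero (groupCohomology I 1))
    (x : groupCohomology E 2) (hx : (map (MonoidHom.id G) i 2).hom x = 0) :
    ∃ c : Cl.ρ.invariants, δδ h₁ h₂ 0 ((H0Iso Cl).inv c) = x := by
  obtain ⟨a, ha⟩ := exists_δδ_eq h₁ h₂ 0 hI x hx
  obtain ⟨c, rfl⟩ := exists_H0Iso_inv_eq a
  exact ⟨c, ha⟩

include h₁' h₂' sqE sqL sqP sqI in
/-- **(B2′) for one ideal class**: if `m • φCl c = 0` in `Cl'` (the class `c` capitulates over `H`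
up to `m`), then `m` kills the image over `H` of `δδ c`. -/
theorem nsmul_map_δδ_H0_eq_zero (m : ℕ) (c : Cl.ρ.invariants) (hc : m • φCl.hom c.1 = 0) :
    m • (map f φE 2).hom (δδ h₁ h₂ 0 ((H0Iso Cl).inv c)) = 0 :=
  nsmul_map_δδ_eq_zero f h₁ h₂ h₁' h₂' φE φL φP φI φCl sqE sqL sqP sqI 0 m _
    (nsmul_map_H0Iso_inv_eq_zero f φCl c m hc)

end Chase

end Fermat.Agent.S55.CF.IdealChase
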